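/-
GATE-K / N9 (helper30): the INTRINSIC TWO-CHART LEMMA (LAT2) over an abstract ultrametric NORM PAIR.

This is `Fermat.Agent.GJ.Lattice.twoChart` (helper39, J1) with the valuation ring `Ow ⊂ F` replaced
by helper90's norm pair `(B, I)` (`B` closed unit ball, `I` open unit ball, e.g. `B = ⋂ W i`,
`I = ⋂ 𝔪 i` for finitely many valuation rings `W i` of `F` above `A ⊂ K`).  Every use of the
valuation in the J1 proof is one of `x ∈ B`, `x ∈ I`, "`x` is a unit of `B`", and the two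
multiplicative facts needed, `1 + I ⊆ Bˣ` and `y ∈ I ⟹ yⁿ ∈ c B` for `n ≫ 0`, follow from the
sphere decomposition (`HasOrthoBases.exists_smul_sphere`) and rank one of `A`.
-/
import Mathlib
import Fermat.Agent.GJ.Lattice.TwoChart
import Fermat.Agent.GK.MultiVal.NormBall

set_option autoImplicit false

namespace Fermat.Agent.GK.Core

open Fermat.Agent.GK.MultiVal

variable {K F : Type*} [Field K] [Field F] [Algebra K F]

/-- Sphere decomposition ("unramified"): every nonzero element is a scalar times an element of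
the unit sphere `B ∖ I`. -/
def HasSphere (K : Type*) {F : Type*} [Field K] [Field F] [Algebra K F]
    (B : Subring F) (I : AddSubgroup F) : Prop :=
  ∀ x : F, x ≠ 0 → ∃ (c : K) (u : F), c ≠ 0 ∧ u ∈ B ∧ u ∉ I ∧ x = c • u

/-- `A` has rank one (archimedean value group), in the form used by J1. -/
def RankOne (A : ValuationSubring K) : Prop :=
  ∀ x c : K, x ∈ A → A.valuation x < 1 → c ≠ 0 → ∃ n : ℕ, A.valuation (x ^ n) ≤ A.valuation c

variable {A : ValuationSubring K} {B : Subring F} {I : AddSubgroup F}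

theorem hasSphere_of_hasOrthoBases (ho : HasOrthoBases A B I) : HasSphere K B I :=
  fun _ hx => ho.exists_smul_sphere hx

section basics

theorem np_mul_mem_right (h : IsNormPair A B I) {x b : F} (hx : x ∈ I) (hb : b ∈ B) :
    x * b ∈ I := by
  rw [mul_comm]; exact h.mul_mem b hb x hx

theorem np_mem_of_sub_one (h : IsNormPair A B I) {x : F} (hx : x - 1 ∈ I) : x ∈ B := by
  have : x = (x - 1) + 1 := by ring
  rw [this]
  exact B.add_mem (h.le _ hx) B.one_mem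

theorem np_one_mul (h : IsNormPair A B I) {x y : F} (hx : x - 1 ∈ I) (hy : y - 1 ∈ I) :
    x * y - 1 ∈ I := by
  have : x * y - 1 = (x - 1) * y + (y - 1) := by ring
  rw [this]
  exact I.add_mem (np_mul_mem_right h hx (np_mem_of_sub_one h hy)) hy

theorem np_one_pow (h : IsNormPair A B I) {x : F} (hx : x - 1 ∈ I) (n : ℕ) :
    x ^ n - 1 ∈ I := by
  induction n with
  | zero => simp [I.zero_mem]
  | succ n ih =>
    rw [pow_succ]
    exact np_one_mul h ih hx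

theorem np_ne_zero_of_sub_one (h : IsNormPair A B I) {x : F} (hx : x - 1 ∈ I) : x ≠ 0 := by
  rintro rfl
  have : (1 : F) = -(0 - 1) := by ring
  exact h.one_notMem (this ▸ I.neg_mem hx)

/-- the coefficient of a sphere decomposition of an element of `I` is a nonunit of `A` -/
theorem np_coeff_nonunit (h : IsNormPair A B I) {y u : F} {c : K} (hy : y ∈ I) (hu : u ∉ I)
    (hyu : y = c • u) : c ∈ A.nonunits := by
  rw [ValuationSubring.mem_nonunits_iff]
  by_contra hnot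
  rw [not_lt] at hnot
  have hc0 : c ≠ 0 := by
    rintro rfl
    rw [map_zero] at hnot
    exact absurd hnot (not_le.mpr zero_lt_one)
  have hinv : c⁻¹ ∈ A := by
    rw [← ValuationSubring.valuation_le_one_iff, map_inv₀]
    exact inv_le_one_of_one_le₀ hnot
  apply hu
  have : u = c⁻¹ • y := by rw [hyu, smul_smul, inv_mul_cancel₀ hc0, one_smul]
  rw [this]
  exact h.smul_mem_rad' hinv hy

/-- `1 + I` consists of units of the ball -/
theorem np_isBallUnit_of_sub_one (h : IsNormPair A B I) (hs : HasSphere K B I) {x : F}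
    (hx : x - 1 ∈ I) : IsBallUnit B x := by
  have hx0 : x ≠ 0 := np_ne_zero_of_sub_one h hx
  have hxB : x ∈ B := np_mem_of_sub_one h hx
  refine ⟨hxB, ?_, hx0⟩
  obtain ⟨c, u, hc0, huB, huI, hxu⟩ := hs x⁻¹ (inv_ne_zero hx0)
  by_cases hcA : c ∈ A
  · rw [hxu]; exact h.smul_mem_ball hcA huB
  · exfalso
    have hcinv : c⁻¹ ∈ A.nonunits := by
      rw [ValuationSubring.mem_nonunits_iff, map_inv₀]
      have : 1 < A.valuation c := by
        rw [← not_le, ValuationSubring.valuation_le_one_iff]; exact hcA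
      exact inv_lt_one_of_one_lt₀ this
    -- `x * u = c⁻¹ • 1 ∈ I`
    have h1 : x * u = algebraMap K F c⁻¹ * 1 := by
      have h2 : x * x⁻¹ = 1 := mul_inv_cancel₀ hx0
      rw [hxu, Algebra.smul_def] at h2
      have hcF : algebraMap K F c ≠ 0 := (map_ne_zero _).mpr hc0
      rw [map_inv₀, mul_one]
      field_simp
      rw [← h2]; ring
    have h3 : x * u ∈ I := by
      rw [h1]; exact h.smul_mem _ hcinv 1 B.one_mem
    apply huI
    have : u = x * u - (x - 1) * u := by ring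
    rw [this]
    exact I.sub_mem h3 (np_mul_mem_right h hx huB)

theorem IsBallUnit_pow {s : F} (hs : IsBallUnit B s) (n : ℕ) : IsBallUnit B (s ^ n) := by
  induction n with
  | zero => simpa using IsBallUnit.one
  | succ n ih => rw [pow_succ]; exact ih.mul hs

/-- rank one, transferred to the norm pair: high powers of an element of `I` are divisible by any
nonzero constant -/
theorem np_pow_mem_smul (h : IsNormPair A B I) (hs : HasSphere K B I) (hrk : RankOne A)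
    {y : F} (hy : y ∈ I) (c : K) (hc : c ≠ 0) :
    ∃ N : ℕ, ∀ n, N ≤ n → ∃ r ∈ B, y ^ n = algebraMap K F c * r := by
  by_cases hy0 : y = 0
  · refine ⟨1, fun n hn => ⟨0, B.zero_mem, ?_⟩⟩
    rw [hy0, zero_pow (by omega), mul_zero]
  obtain ⟨cy, u, hcy0, huB, huI, hyu⟩ := hs y hy0
  have hcyn : cy ∈ A.nonunits := np_coeff_nonunit h hy huI hyu
  have hcy1 : A.valuation cy < 1 := (A.mem_nonunits_iff).mp hcyn
  have hcyA : cy ∈ A := (A.valuation_le_one_iff cy).mp hcy1.le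
  obtain ⟨N, hN⟩ := hrk cy c hcyA hcy1 hc
  refine ⟨N, fun n hn => ?_⟩
  have hvn : A.valuation (cy ^ n) ≤ A.valuation c := by
    refine le_trans ?_ hN
    rw [map_pow, map_pow]
    exact pow_le_pow_right_of_le_one' hcy1.le hn
  have haA : cy ^ n / c ∈ A := by
    rw [← ValuationSubring.valuation_le_one_iff, map_div₀]
    exact div_le_one_of_le₀ hvn zero_le
  refine ⟨(cy ^ n / c) • u ^ n, h.smul_mem_ball haA (B.pow_mem huB n), ?_⟩
  rw [hyu, smul_pow, Algebra.smul_def, Algebra.smul_def, ← mul_assoc, ← map_mul,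
    mul_div_cancel₀ _ hc]

end basics

/-- the integral elements of an increasing multiplicative family of subspaces form a subring -/
def ballSubringNP (B : Subring F) (L : ℕ → Submodule K F) (hmono : Monotone L)
    (hone : (1 : F) ∈ L 0) (hmul : ∀ a b, ∀ x ∈ L a, ∀ y ∈ L b, x * y ∈ L (a + b)) :
    Subring F where
  carrier := {x | ∃ n, x ∈ L n ∧ x ∈ B}
  mul_mem' := by
    rintro x y ⟨a, hxa, hx⟩ ⟨b, hyb, hy⟩
    exact ⟨a + b, hmul a b x hxa y hyb, B.mul_mem hx hy⟩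
  one_mem' := ⟨0, hone, B.one_mem⟩
  add_mem' := by
    rintro x y ⟨a, hxa, hx⟩ ⟨b, hyb, hy⟩
    exact ⟨max a b, add_mem (hmono (le_max_left a b) hxa) (hmono (le_max_right a b) hyb),
      B.add_mem hx hy⟩
  zero_mem' := ⟨0, zero_mem _, B.zero_mem⟩
  neg_mem' := by
    rintro x ⟨a, hxa, hx⟩
    exact ⟨a, neg_mem hxa, B.neg_mem hx⟩

set_option linter.unusedVariables false in
/-- **LAT2 over a norm pair, the intrinsic two-chart lemma.** -/
theorem twoChartNP (h : IsNormPair A B I) (hs : HasSphere K B I) (hrk : RankOne A)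
    (m : ℕ) (hm : IsBallUnit B (m : F))
    (L1 L2 L20 L12 : ℕ → Submodule K F)
    (mono1 : Monotone L1) (mono2 : Monotone L2) (mono20 : Monotone L20) (mono12 : Monotone L12)
    (h1 : ∀ n, L1 n ≤ L12 n) (h2 : ∀ n, L2 n ≤ L12 n) (h20 : ∀ n, L20 n ≤ L12 n)
    (one1 : (1 : F) ∈ L1 0) (one20 : (1 : F) ∈ L20 0)
    (mul1 : ∀ a b, ∀ x ∈ L1 a, ∀ y ∈ L1 b, x * y ∈ L1 (a + b))
    (mul20 : ∀ a b, ∀ x ∈ L20 a, ∀ y ∈ L20 b, x * y ∈ L20 (a + b))
    (mul2 : ∀ a b, ∀ x ∈ L20 a, ∀ y ∈ L2 b, x * y ∈ L2 (a + b))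
    (hBT : ∃ c0 : K, c0 ≠ 0 ∧ c0 ∈ A ∧ ∀ x : F, (∃ n, x ∈ L12 n ∧ x ∈ B) →
      ∀ c : K, c ≠ 0 → c ∈ A →
      (∃ y1 : F, (∃ n, y1 ∈ L1 n ∧ y1 ∈ B) ∧ ∃ y2 : F, (∃ n, y2 ∈ L2 n ∧ y2 ∈ B) ∧
        c • x = y1 + y2) →
      ∃ z1 : F, (∃ n, z1 ∈ L1 n ∧ z1 ∈ B) ∧ ∃ z2 : F, (∃ n, z2 ∈ L2 n ∧ z2 ∈ B) ∧
        c0 • x = z1 + z2)
    (u : F) (n1 : ℕ) (hu1 : u - 1 ∈ L1 n1) (hu : u - 1 ∈ I)
    (β : F) (n2 : ℕ) (hβ2 : β ∈ L2 n2) (hβ : β - 1 ∈ I)
    (hβu : β ^ m * u ∈ L20 (m * n2)) :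
    ∃ n n' : ℕ, ∃ x : F, x ≠ 0 ∧ x ∈ L1 n ∧ x ∈ L2 n' := by
  classical
  obtain ⟨c0, hc0, hc0A, hBT⟩ := hBT
  -- the trivial case
  by_cases htriv : u - 1 = 0 ∧ β - 1 = 0
  · refine ⟨0, n2, 1, one_ne_zero, one1, ?_⟩
    rw [← sub_eq_zero.mp htriv.2]
    exact hβ2
  -- a nonzero nonunit `π` of `A`
  obtain ⟨π, hπ0, hπn⟩ : ∃ π : K, π ≠ 0 ∧ π ∈ A.nonunits := by
    have : ∃ y : F, y ≠ 0 ∧ y ∈ I := by
      by_cases h' : u - 1 = 0
      · exact ⟨β - 1, fun h'' => htriv ⟨h', h''⟩, hβ⟩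
      · exact ⟨u - 1, h', hu⟩
    obtain ⟨y, hy0, hyI⟩ := this
    obtain ⟨π, u', hπ0, hu'B, hu'I, hyu'⟩ := hs y hy0
    exact ⟨π, hπ0, np_coeff_nonunit h hyI hu'I hyu'⟩
  have hπA : π ∈ A :=
    (A.valuation_le_one_iff π).mp ((A.mem_nonunits_iff).mp hπn).le
  -- the constant `c`
  set c : K := c0 * π with hc
  have hc_ne : c ≠ 0 := mul_ne_zero hc0 hπ0
  have hcA : c ∈ A := A.mul_mem _ _ hc0A hπA
  -- `1/m`
  have hmF : (m : F) ≠ 0 := hm.2.2
  have hminvB : ((m : F)⁻¹) ∈ B := hm.2.1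
  have hminvL : ∀ (L : ℕ → Submodule K F), (1 : F) ∈ L 0 → ((m : F)⁻¹) ∈ L 0 := by
    intro L hL
    have : ((m : F)⁻¹) = ((m : K)⁻¹) • (1 : F) := by
      rw [Algebra.smul_def, mul_one, map_inv₀, map_natCast]
    rw [this]
    exact (L 0).smul_mem _ hL
  -- the two subrings
  let B1 : Subring F := ballSubringNP B L1 mono1 one1 mul1
  let B20 : Subring F := ballSubringNP B L20 mono20 one20 mul20
  -- the small elements
  set ε : F := u - 1 with hε
  set g2 : F := β ^ m * u with hg2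
  set ε2 : F := g2 - 1 with hε2
  have hε2I : ε2 ∈ I := np_one_mul h (np_one_pow h hβ m) hu
  have hεB : ε ∈ B1 := ⟨n1, hu1, h.le _ hu⟩
  have hε2B : ε2 ∈ B20 :=
    ⟨m * n2, sub_mem hβu (mono20 (Nat.zero_le _) one20), h.le _ hε2I⟩
  have hu_eq : 1 + ε = u := by rw [hε]; ring
  have hg2_eq : 1 + ε2 = g2 := by rw [hε2]; ring
  -- choose the precision
  obtain ⟨N1, hN1⟩ := np_pow_mem_smul h hs hrk hu c hc_ne
  obtain ⟨N2, hN2⟩ := np_pow_mem_smul h hs hrk hε2I c hc_ne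
  set n : ℕ := max N1 N2 with hn
  -- Newton approximations
  obtain ⟨b1, hb1B, w1, hw1B, r1, hr1B, hb1w, hb1⟩ :=
    Fermat.Agent.GJ.Lattice.tc_newton B1 m hmF ⟨0, hminvL L1 one1, hminvB⟩ ε hεB n
  obtain ⟨s2, hs2B, w2, hw2B, r2, hr2B, hs2w, hs2⟩ :=
    Fermat.Agent.GJ.Lattice.tc_newton B20 m hmF ⟨0, hminvL L20 one20, hminvB⟩ ε2 hε2B n
  rw [hu_eq] at hb1
  rw [hg2_eq] at hs2
  obtain ⟨a1, hb1L, hb1Bm⟩ := hb1B
  obtain ⟨a2, hs2L, hs2Bm⟩ := hs2B
  obtain ⟨-, -, hw1Bm⟩ := hw1B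
  obtain ⟨-, -, hw2Bm⟩ := hw2B
  obtain ⟨-, -, hr1Bm⟩ := hr1B
  obtain ⟨-, -, hr2Bm⟩ := hr2B
  set b2 : F := s2 * β with hb2
  have hb2L : b2 ∈ L2 (a2 + n2) := mul2 a2 n2 s2 hs2L β hβ2
  have hβB : β ∈ B := np_mem_of_sub_one h hβ
  have hb2Bm : b2 ∈ B := B.mul_mem hs2Bm hβB
  have hb2m : b2 ^ m * u = 1 + ε2 ^ (n + 1) * r2 := by
    rw [← hs2, hg2, hb2]; ring
  -- congruences to `1`
  have hb1_1 : b1 - 1 ∈ I := by
    rw [hb1w, add_sub_cancel_left]
    exact np_mul_mem_right h hu hw1Bm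
  have hs2_1 : s2 - 1 ∈ I := by
    rw [hs2w, add_sub_cancel_left]
    exact np_mul_mem_right h hε2I hw2Bm
  have hb2_1 : b2 - 1 ∈ I := np_one_mul h hs2_1 hβ
  -- `Θ`
  set Θ : F := ∑ i ∈ Finset.range m, b1 ^ i * b2 ^ (m - 1 - i) with hΘ
  have hΘmul : Θ * (b1 - b2) = b1 ^ m - b2 ^ m := geom_sum₂_mul _ _ _
  have hΘm : Θ - (m : F) ∈ I := by
    have : Θ - (m : F) = ∑ i ∈ Finset.range m, (b1 ^ i * b2 ^ (m - 1 - i) - 1) := by
      rw [Finset.sum_sub_distrib, Finset.sum_const, Finset.card_range, nsmul_eq_mul, mul_one]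
    rw [this]
    exact I.sum_mem fun i _ => np_one_mul h (np_one_pow h hb1_1 i) (np_one_pow h hb2_1 _)
  have hΘunit : IsBallUnit B Θ := by
    have h1 : Θ * (m : F)⁻¹ - 1 ∈ I := by
      have : Θ * (m : F)⁻¹ - 1 = (Θ - (m : F)) * (m : F)⁻¹ := by
        field_simp
      rw [this]
      exact np_mul_mem_right h hΘm hminvB
    have h2 := (np_isBallUnit_of_sub_one h hs h1).mul hm
    have h3 : Θ * (m : F)⁻¹ * (m : F) = Θ := by field_simp
    rwa [h3] at h2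
  have huunit : IsBallUnit B u := np_isBallUnit_of_sub_one h hs hu
  have hΘu : IsBallUnit B (Θ * u) := hΘunit.mul huunit
  -- the difference `b1 - b2` is divisible by `c`
  have hdiff : (b1 - b2) * (Θ * u) = ε ^ (n + 1) * r1 - ε2 ^ (n + 1) * r2 := by
    have : (b1 - b2) * (Θ * u) = (Θ * (b1 - b2)) * u := by ring
    rw [this, hΘmul, sub_mul, hb1, hb2m]; ring
  set ac : F := algebraMap K F c with hac
  have hac0 : ac ≠ 0 := (map_ne_zero _).mpr hc_ne
  obtain ⟨q1, hq1B, hq1⟩ := hN1 (n + 1) (le_trans (le_max_left _ _) (Nat.le_succ _))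
  obtain ⟨q2, hq2B, hq2⟩ := hN2 (n + 1) (le_trans (le_max_right _ _) (Nat.le_succ _))
  -- the element `x = (b1 - b2)/c`
  set x : F := (b1 - b2) / ac with hx
  have hΘu0 : Θ * u ≠ 0 := hΘu.2.2
  have hxeq : x = (q1 * r1 - q2 * r2) * (Θ * u)⁻¹ := by
    have h4 : (b1 - b2) * (Θ * u) = ac * (q1 * r1 - q2 * r2) := by
      rw [hdiff, hq1, hq2]; ring
    have h5 : b1 - b2 = ac * ((q1 * r1 - q2 * r2) * (Θ * u)⁻¹) := by
      rw [← mul_assoc, ← h4, mul_assoc, mul_inv_cancel₀ hΘu0, mul_one]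
    rw [hx, h5, mul_div_cancel_left₀ _ hac0]
  have hxB : x ∈ B := by
    rw [hxeq]
    exact B.mul_mem (B.sub_mem (B.mul_mem hq1B hr1Bm) (B.mul_mem hq2B hr2Bm)) hΘu.2.1
  have hcx : c • x = b1 - b2 := by
    rw [Algebra.smul_def, hx, ← hac, mul_div_cancel₀ _ hac0]
  set lvl : ℕ := max a1 (a2 + n2) with hlvl
  have hxL : x ∈ L12 lvl := by
    have : x = (c⁻¹) • (b1 - b2) := by
      rw [Algebra.smul_def, map_inv₀, hx, div_eq_inv_mul]
    rw [this]
    apply (L12 lvl).smul_mem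
    exact sub_mem (mono12 (le_max_left _ _) (h1 a1 hb1L)) (mono12 (le_max_right _ _) (h2 _ hb2L))
  obtain ⟨z1, ⟨d1, hz1L, hz1B⟩, z2, ⟨d2, hz2L, hz2B⟩, hz⟩ := hBT x ⟨lvl, hxL, hxB⟩ c hc_ne hcA
    ⟨b1, ⟨a1, hb1L, hb1Bm⟩, -b2, ⟨a2 + n2, neg_mem hb2L, B.neg_mem hb2Bm⟩, by
      rw [hcx]; ring⟩
  -- the common element of `L1` and `L2`
  set w : F := c0 • b1 - c • z1 with hw
  have hw' : w = c0 • b2 + c • z2 := by
    have h3 : c0 • (b1 - b2) = c • (z1 + z2) := by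
      rw [← hcx, smul_comm, hz]
    rw [smul_sub, smul_add] at h3
    rw [hw]
    linear_combination h3
  have hwL1 : w ∈ L1 (max a1 d1) :=
    sub_mem ((L1 _).smul_mem _ (mono1 (le_max_left _ _) hb1L))
      ((L1 _).smul_mem _ (mono1 (le_max_right _ _) hz1L))
  have hwL2 : w ∈ L2 (max (a2 + n2) d2) := by
    rw [hw']
    exact add_mem ((L2 _).smul_mem _ (mono2 (le_max_left _ _) hb2L))
      ((L2 _).smul_mem _ (mono2 (le_max_right _ _) hz2L))
  by_cases hw0 : w = 0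
  · exfalso
    have h4 : c0 • b1 = c • z1 := by
      rw [hw] at hw0
      exact sub_eq_zero.mp hw0
    -- `b1 = π • z1 ∈ I`, hence `1 ∈ I`
    have h5 : b1 = π • z1 := by
      have h6 : c0 • b1 = c0 • (π • z1) := by rw [h4, hc, mul_smul]
      exact smul_right_injective F hc0 h6
    have h8 : b1 ∈ I := by rw [h5]; exact h.smul_mem_rad hπn hz1B
    have h9 : (1 : F) = b1 - (b1 - 1) := by ring
    exact h.one_notMem (h9 ▸ I.sub_mem h8 hb1_1)
  · exact ⟨_, _, w, hw0, hwL1, hwL2⟩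

end Fermat.Agent.GK.Core
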