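/-
GATE-K / N9 (helper30): the ABSTRACT CORE (Claim 2) over an ultrametric NORM PAIR.

Port of helper56's J1 abstract core (`GJ/J1/AbsCore{Data,Gen}.lean`, `AbsCore.lean`) from one
valuation ring `Ow ⊂ F` to helper90's norm pair `(B, I)` with orthonormal bases
(`GK/MultiVal/NormBall.lean`): `B = ⋂ W i` for finitely many valuation rings above `A ⊂ K`, residue
"ring" `Λ = ∏ κ i` (only a `k`-module is needed; `red : B →+ Λ` is only used additively).

`CoreDataNP` = hypotheses (H-a)…(H-u) of the J1 plan with `x ∈ Ow ↦ x ∈ B`,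
`Ow.valuation x < 1 ↦ x ∈ I`, `(m : κ) ≠ 0 ↦ (m : k) ≠ 0`, and `red_LD` only required in large
degree (`c ≤ b * d2`, as in helper39's `CoreFam`);  `absCoreNP` : `L(D) ≠ 0`.
-/
import Mathlib
import Fermat.Agent.GK.Core.TwoChartNP

set_option autoImplicit false

namespace Fermat.Agent.GK.Core

open Module Fermat.Agent.GK.MultiVal

variable {K F : Type*} [Field K] [Field F] [Algebra K F]
variable {k Λ : Type*} [Field k] [AddCommGroup Λ] [Module k Λ]

/-- The abstract two-fibre lattice datum over a norm pair: `L a b = L(aE₁ + bE₂)`,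
`LD b = L(D + bE₂)` on the generic fibre, `Lt a b ⊆ Λ` the (glued) special-fibre spaces. -/
structure CoreDataNP (A : ValuationSubring K) (B : Subring F) (I : AddSubgroup F)
    (res : A →+* k) (red : B →+ Λ) where
  L : ℕ → ℕ → Submodule K F
  LD : ℕ → Submodule K F
  Lt : ℕ → ℕ → Submodule k Λ
  d1 : ℕ
  d2 : ℕ
  g : ℕ
  c : ℕ
  a0 : ℕ
  m : ℕ
  u : F
  n1 : ℕ
  L_mono : ∀ {a a' b b' : ℕ}, a ≤ a' → b ≤ b' → L a b ≤ L a' b'
  LD_mono : ∀ {b b' : ℕ}, b ≤ b' → LD b ≤ LD b'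
  Lt_mono : ∀ {a a' b b' : ℕ}, a ≤ a' → b ≤ b' → Lt a b ≤ Lt a' b'
  one_mem : (1 : F) ∈ L 0 0
  L_mul : ∀ a b a' b' : ℕ, ∀ x ∈ L a b, ∀ y ∈ L a' b', x * y ∈ L (a + a') (b + b')
  LD_mul : ∀ b b' : ℕ, ∀ x ∈ L 0 b, ∀ y ∈ LD b', x * y ∈ LD (b + b')
  LD_le : ∀ b : ℕ, LD b ≤ L a0 b
  book : ∀ a b n0 : ℕ, a0 ≤ n0 → ∀ x1 ∈ L a 0, ∀ x2 ∈ LD b, x1 + x2 ∈ L n0 n0 →
    x1 ∈ L n0 0 ∧ x2 ∈ LD n0
  L_fin : ∀ a b : ℕ, FiniteDimensional K (L a b)
  Lt_fin : ∀ a b : ℕ, FiniteDimensional k (Lt a b)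
  red_L : ∀ a b : ℕ, ∀ x : B, (x : F) ∈ L a b → red x ∈ Lt a b
  red_LD : ∀ b : ℕ, c ≤ b * d2 → ∀ x : B, (x : F) ∈ LD b → red x ∈ Lt 0 b
  one_mem_Lt : red 1 ∈ Lt 0 0
  d1_pos : 0 < d1
  d2_pos : 0 < d2
  dim_L : ∀ a b : ℕ, a * d1 + b * d2 + 1 ≤ finrank K (L a b) + g
  dim_LD : ∀ b : ℕ, b * d2 + 1 ≤ finrank K (LD b) + g
  dim_Lt : ∀ a b : ℕ, c ≤ a * d1 + b * d2 → finrank k (Lt a b) + g ≤ a * d1 + b * d2 + 1
  Lt_inf : ∀ a b a' b' : ℕ, Lt a b ⊓ Lt a' b' = Lt (min a a') (min b b')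
  hm : (m : k) ≠ 0
  u_mem : u - 1 ∈ L n1 0
  u_val : u - 1 ∈ I
  u_trick : ∀ b : ℕ, ∀ x ∈ LD b, x ^ m * u ∈ L 0 (m * b)

variable {A : ValuationSubring K} {B : Subring F} {I : AddSubgroup F}
  {res : A →+* k} {red : B →+ Λ}

/-! ### Small lemmas on norm pairs -/

theorem redBall_le_of_forall {V : Submodule K F} {W : Submodule k Λ}
    (hred : ∀ x : B, (x : F) ∈ V → red x ∈ W) : redBall (k := k) B red V ≤ W := by
  rw [redBall, Submodule.span_le]
  rintro _ ⟨x, hx, rfl⟩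
  exact hred x hx

theorem linearCombination_eq_sum {ι : Type*} [Fintype ι] (g : ι → F) (c : ι →₀ K) :
    Finsupp.linearCombination K g c = ∑ i, c i • g i := by
  rw [Finsupp.linearCombination_apply, Finsupp.sum_fintype _ _ (fun i => zero_smul K (g i))]

theorem linearCombination_equivFun {ι : Type*} [Fintype ι] (g : ι → F) (c : ι → K) :
    Finsupp.linearCombination K g (Finsupp.equivFunOnFinite.symm c) = ∑ i, c i • g i := by
  rw [linearCombination_eq_sum]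
  rfl

/-- a family of the ball with `k`-linearly independent reductions is orthonormal -/
theorem orthoFamily_of_red_indep {h : IsNormPair A B I} (hR : IsRedSystem A B I res red h)
    {ι : Type*} [Fintype ι] (y : ι → B)
    (hli : LinearIndependent k (fun i => red (y i))) :
    IsOrthoFamily A B I (fun i => ((y i : B) : F)) where
  mem := fun i => (y i).2
  indep := by
    intro c hcA hmem j
    obtain ⟨z, hz1, hz2⟩ := hR.exists_comb (fun i => (⟨c i, hcA i⟩ : A)) y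
    have hzI : (z : F) ∈ I := by
      rw [hz1]
      rw [linearCombination_eq_sum] at hmem
      exact hmem
    have hz0 : red z = 0 := (hR.red_ker z).mpr hzI
    rw [hz2] at hz0
    have := Fintype.linearIndependent_iff.1 hli (fun i => res ⟨c i, hcA i⟩) hz0 j
    exact (hR.res_ker ⟨c j, hcA j⟩).mp this

theorem orthoFamily_sum_mem_iff (h : IsNormPair A B I) {ι : Type*} [Fintype ι] {g : ι → F}
    (hg : IsOrthoFamily A B I g) (c : ι → K) : ∑ i, c i • g i ∈ B ↔ ∀ i, c i ∈ A := by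
  rw [← linearCombination_equivFun, hg.linearCombination_mem_iff h]
  rfl

theorem np_exists_denominator (h : IsNormPair A B I) (hs : HasSphere K B I) (y : F) :
    ∃ c : K, c ≠ 0 ∧ c ∈ A ∧ c • y ∈ B := by
  by_cases hy : y = 0
  · exact ⟨1, one_ne_zero, A.one_mem, by simp [hy, B.zero_mem]⟩
  · obtain ⟨c', u, hc'0, huB, -, hyu⟩ := hs y hy
    by_cases hc'A : c' ∈ A
    · refine ⟨1, one_ne_zero, A.one_mem, ?_⟩
      rw [one_smul, hyu]
      exact h.smul_mem_ball hc'A huB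
    · refine ⟨c'⁻¹, inv_ne_zero hc'0, (A.mem_or_inv_mem c').resolve_left hc'A, ?_⟩
      rw [hyu, smul_smul, inv_mul_cancel₀ hc'0, one_smul]
      exact huB

theorem np_exists_common_denominator (h : IsNormPair A B I) (hs : HasSphere K B I)
    {ι : Type*} (s : Finset ι) (y : ι → F) :
    ∃ c : K, c ≠ 0 ∧ c ∈ A ∧ ∀ i ∈ s, c • y i ∈ B := by
  classical
  induction s using Finset.induction_on with
  | empty => exact ⟨1, one_ne_zero, A.one_mem, by simp⟩
  | insert a s _ ih =>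
    obtain ⟨c, hc0, hcA, hc⟩ := ih
    obtain ⟨c', hc'0, hc'A, hc'⟩ := np_exists_denominator h hs (y a)
    refine ⟨c * c', mul_ne_zero hc0 hc'0, A.mul_mem _ _ hcA hc'A, fun i hi => ?_⟩
    rcases Finset.mem_insert.1 hi with rfl | hi
    · rw [mul_smul]; exact h.smul_mem_ball hcA hc'
    · rw [mul_comm, mul_smul]; exact h.smul_mem_ball hc'A (hc i hi)

theorem np_sum_smul_mem (h : IsNormPair A B I) {ι : Type*} (s : Finset ι) (c : ι → K)
    (f : ι → F) (hc : ∀ i ∈ s, c i ∈ A) (hf : ∀ i ∈ s, f i ∈ B) : ∑ i ∈ s, c i • f i ∈ B :=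
  B.sum_mem fun i hi => h.smul_mem_ball (hc i hi) (hf i hi)

/-- `m` is a unit of the ball as soon as it is nonzero in the residue field of `A`. -/
theorem np_natCast_isBallUnit {h : IsNormPair A B I} (hR : IsRedSystem A B I res red h)
    {m : ℕ} (hm : (m : k) ≠ 0) : IsBallUnit B (m : F) := by
  have hmA : (m : K) ∈ A := natCast_mem A m
  have hres : res ⟨(m : K), hmA⟩ = (m : k) := by
    have : (⟨(m : K), hmA⟩ : A) = (m : A) := by ext; simp
    rw [this, map_natCast]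
  have hnon : (m : K) ∉ A.nonunits := fun hn =>
    hm (hres ▸ (hR.res_ker ⟨(m : K), hmA⟩).mpr hn)
  have hv1 : A.valuation (m : K) = 1 := by
    have hle : A.valuation (m : K) ≤ 1 := (A.valuation_le_one_iff _).mpr hmA
    exact le_antisymm hle (not_lt.mp fun hlt => hnon ((A.mem_nonunits_iff).mpr hlt))
  have hm0 : (m : K) ≠ 0 := by
    intro h0
    rw [h0, map_zero] at hv1
    exact zero_ne_one hv1
  have hinvA : ((m : K))⁻¹ ∈ A := by
    rw [← ValuationSubring.valuation_le_one_iff, map_inv₀, hv1, inv_one]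
  refine ⟨?_, ?_, ?_⟩
  · have := (h.algebraMap_mem_iff (m : K)).mpr hmA
    rwa [map_natCast] at this
  · have := (h.algebraMap_mem_iff ((m : K))⁻¹).mpr hinvA
    rwa [map_inv₀, map_natCast] at this
  · have := (map_ne_zero (algebraMap K F)).mpr hm0
    rwa [map_natCast] at this

namespace CoreDataNP

variable (D : CoreDataNP A B I res red)

theorem LD_fin (b : ℕ) : FiniteDimensional K (D.LD b) := by
  have := D.L_fin D.a0 b
  exact Submodule.finiteDimensional_of_le (D.LD_le b)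

variable (h : IsNormPair A B I) (ho : HasOrthoBases A B I) (hR : IsRedSystem A B I res red h)
include ho hR

/-- exact dimension on the special fibre, equality of dimensions, and surjectivity of the
reduction `L a b ∩ B → Lt a b`, in large degree -/
theorem squeeze_L (a b : ℕ) (hc : D.c ≤ a * D.d1 + b * D.d2) :
    finrank k (D.Lt a b) + D.g = a * D.d1 + b * D.d2 + 1 ∧
      finrank K (D.L a b) = finrank k (D.Lt a b) ∧
      ∀ ξ ∈ D.Lt a b, ∃ x : B, (x : F) ∈ D.L a b ∧ red x = ξ := by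
  have := D.L_fin a b
  have := D.Lt_fin a b
  have h1 := D.dim_L a b
  have h2 := D.dim_Lt a b hc
  have hle : redBall (k := k) B red (D.L a b) ≤ D.Lt a b := redBall_le_of_forall (D.red_L a b)
  have hdim : finrank k (D.Lt a b) ≤ finrank K (D.L a b) := by omega
  have heq := ho.redBall_eq_of_le hR (D.L a b) (D.Lt a b) hle hdim
  have hfr := ho.finrank_redBall hR (D.L a b)
  rw [heq] at hfr
  exact ⟨by omega, hfr.symm, fun ξ hξ => ho.exists_lift hR (D.L a b) (D.Lt a b) hle hdim hξ⟩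

/-- surjectivity of the reduction `LD b ∩ B → Lt 0 b`, in large degree -/
theorem squeeze_LD (b : ℕ) (hc : D.c ≤ b * D.d2) :
    ∀ ξ ∈ D.Lt 0 b, ∃ x : B, (x : F) ∈ D.LD b ∧ red x = ξ := by
  have := D.LD_fin b
  have := D.Lt_fin 0 b
  have h1 := D.dim_LD b
  have h2 := D.dim_Lt 0 b (by omega)
  have hle : redBall (k := k) B red (D.LD b) ≤ D.Lt 0 b :=
    redBall_le_of_forall (D.red_LD b hc)
  have hdim : finrank k (D.Lt 0 b) ≤ finrank K (D.LD b) := by omega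
  exact fun ξ hξ => ho.exists_lift hR (D.LD b) (D.Lt 0 b) hle hdim hξ

/-- The special-fibre dimension count. -/
theorem Lt_decomp (n0 n : ℕ) (hn : n0 ≤ n) (h1 : D.c ≤ n0 * D.d1) (h2 : D.c ≤ n0 * D.d2) :
    D.Lt n n = D.Lt n 0 ⊔ D.Lt 0 n ⊔ D.Lt n0 n0 := by
  have hd1 : n0 * D.d1 ≤ n * D.d1 := Nat.mul_le_mul_right _ hn
  have hd2 : n0 * D.d2 ≤ n * D.d2 := Nat.mul_le_mul_right _ hn
  -- exact dimensions
  have e_nn := (D.squeeze_L h ho hR n n (by omega)).1
  have e_nn0 := (D.squeeze_L h ho hR n n0 (by omega)).1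
  have e_n0n := (D.squeeze_L h ho hR n0 n (by omega)).1
  have e_n0n0 := (D.squeeze_L h ho hR n0 n0 (by omega)).1
  have e_n0 := (D.squeeze_L h ho hR n 0 (by omega)).1
  have e_0n := (D.squeeze_L h ho hR 0 n (by omega)).1
  have e_n00 := (D.squeeze_L h ho hR n0 0 (by omega)).1
  have e_0n0 := (D.squeeze_L h ho hR 0 n0 (by omega)).1
  have := D.Lt_fin
  -- step 1 : Lt n n = Lt n n0 ⊔ Lt n0 n
  have s1 : D.Lt n n0 ⊔ D.Lt n0 n = D.Lt n n := by
    apply Submodule.eq_of_le_of_finrank_eq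
      (sup_le (D.Lt_mono le_rfl hn) (D.Lt_mono hn le_rfl))
    have hinf : D.Lt n n0 ⊓ D.Lt n0 n = D.Lt n0 n0 := by
      rw [D.Lt_inf, min_eq_right hn, min_eq_left hn]
    have := Submodule.finrank_sup_add_finrank_inf_eq (D.Lt n n0) (D.Lt n0 n)
    rw [hinf] at this
    omega
  -- step 2 : Lt n n0 = Lt n 0 ⊔ Lt n0 n0
  have s2 : D.Lt n 0 ⊔ D.Lt n0 n0 = D.Lt n n0 := by
    apply Submodule.eq_of_le_of_finrank_eq
      (sup_le (D.Lt_mono le_rfl (Nat.zero_le _)) (D.Lt_mono hn le_rfl))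
    have hinf : D.Lt n 0 ⊓ D.Lt n0 n0 = D.Lt n0 0 := by
      rw [D.Lt_inf, min_eq_right hn, min_eq_left (Nat.zero_le _)]
    have := Submodule.finrank_sup_add_finrank_inf_eq (D.Lt n 0) (D.Lt n0 n0)
    rw [hinf] at this
    omega
  -- step 3 : Lt n0 n = Lt 0 n ⊔ Lt n0 n0
  have s3 : D.Lt 0 n ⊔ D.Lt n0 n0 = D.Lt n0 n := by
    apply Submodule.eq_of_le_of_finrank_eq
      (sup_le (D.Lt_mono (Nat.zero_le _) le_rfl) (D.Lt_mono le_rfl hn))
    have hinf : D.Lt 0 n ⊓ D.Lt n0 n0 = D.Lt 0 n0 := by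
      rw [D.Lt_inf, min_eq_left (Nat.zero_le _), min_eq_right hn]
    have := Submodule.finrank_sup_add_finrank_inf_eq (D.Lt 0 n) (D.Lt n0 n0)
    rw [hinf] at this
    omega
  rw [← s1, ← s2, ← s3]
  -- lattice bookkeeping
  apply le_antisymm
  · refine sup_le (sup_le ?_ ?_) (sup_le ?_ ?_)
    · exact le_sup_of_le_left le_sup_left
    · exact le_sup_right
    · exact le_sup_of_le_left le_sup_right
    · exact le_sup_right
  · refine sup_le (sup_le ?_ ?_) ?_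
    · exact le_sup_of_le_left le_sup_left
    · exact le_sup_of_le_right le_sup_left
    · exact le_sup_of_le_left le_sup_right

/-- **Generation.**  For `n ≥ n₀` (large), the unit ball of `L n n` is the sum of the unit
balls of `L n 0`, `LD n` and `L n₀ n₀`. -/
theorem generation (n0 n : ℕ) (hn : n0 ≤ n) (ha0 : D.a0 ≤ n0) (h1 : D.c ≤ n0 * D.d1)
    (h2 : D.c ≤ n0 * D.d2) (x : F) (hx : x ∈ D.L n n) (hxB : x ∈ B) :
    ∃ x1 ∈ D.L n 0, x1 ∈ B ∧ ∃ x2 ∈ D.LD n, x2 ∈ B ∧ ∃ x0 ∈ D.L n0 n0, x0 ∈ B ∧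
      x = x1 + x2 + x0 := by
  classical
  have hd1 : n0 * D.d1 ≤ n * D.d1 := Nat.mul_le_mul_right _ hn
  have hd2 : n0 * D.d2 ≤ n * D.d2 := Nat.mul_le_mul_right _ hn
  have := D.L_fin n n
  obtain ⟨e, he⟩ := ho (D.L n n) inferInstance
  have hdec := D.Lt_decomp h ho hR n0 n hn h1 h2
  have key : ∀ i, ∃ y1 : B, (y1 : F) ∈ D.L n 0 ∧ ∃ y2 : B, (y2 : F) ∈ D.LD n ∧
      ∃ y0 : B, (y0 : F) ∈ D.L n0 n0 ∧
      red (y1 + y2 + y0) = red ⟨((e i : D.L n n) : F), he.mem i⟩ := by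
    intro i
    have hmem : red ⟨((e i : D.L n n) : F), he.mem i⟩ ∈ D.Lt n n :=
      D.red_L n n _ (e i).2
    rw [hdec] at hmem
    obtain ⟨ξ12, h12, ξ0, h0, hsum⟩ := Submodule.mem_sup.1 hmem
    obtain ⟨ξ1, hξ1, ξ2, hξ2, hsum12⟩ := Submodule.mem_sup.1 h12
    obtain ⟨y1, hy1, hr1⟩ := (D.squeeze_L h ho hR n 0 (by omega)).2.2 ξ1 hξ1
    obtain ⟨y2, hy2, hr2⟩ := D.squeeze_LD h ho hR n (by omega) ξ2 hξ2
    obtain ⟨y0, hy0, hr0⟩ := (D.squeeze_L h ho hR n0 n0 (by omega)).2.2 ξ0 h0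
    refine ⟨y1, hy1, y2, hy2, y0, hy0, ?_⟩
    rw [map_add, map_add, hr1, hr2, hr0, hsum12, hsum]
  choose y1 hy1 y2 hy2 y0 hy0 hred using key
  set y : Fin (finrank K (D.L n n)) → B := fun i => y1 i + y2 i + y0 i with hy
  have hycoe : ∀ i, ((y i : B) : F) = (y1 i : F) + (y2 i : F) + (y0 i : F) := fun i => by
    simp [hy]
  have hyV : ∀ i, ((y i : B) : F) ∈ D.L n n := fun i => by
    rw [hycoe]
    exact (D.L n n).add_mem ((D.L n n).add_mem (D.L_mono le_rfl (Nat.zero_le _) (hy1 i))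
      (D.L_mono (ha0.trans hn) le_rfl (D.LD_le n (hy2 i)))) (D.L_mono hn hn (hy0 i))
  have hliκ : LinearIndependent k (fun i => red (y i)) := by
    have heq : (fun i => red (y i)) =
        fun i => red ⟨((e i : D.L n n) : F), he.mem i⟩ := funext hred
    rw [heq]
    exact he.linearIndependent_red hR
  have hyO : IsOrthoFamily A B I (fun i => ((y i : B) : F)) := orthoFamily_of_red_indep hR y hliκ
  have hliK : LinearIndependent K (fun i => ((y i : B) : F)) := hyO.linearIndependent h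
  have hliV : LinearIndependent K (fun i => (⟨((y i : B) : F), hyV i⟩ : D.L n n)) :=
    LinearIndependent.of_comp (D.L n n).subtype hliK
  have hspan := hliV.span_eq_top_of_card_eq_finrank' (by rw [Fintype.card_fin])
  have hmem : (⟨x, hx⟩ : D.L n n) ∈ Submodule.span K
      (Set.range fun i => (⟨((y i : B) : F), hyV i⟩ : D.L n n)) := by
    rw [hspan]; trivial
  obtain ⟨cf, hcf⟩ := (Submodule.mem_span_range_iff_exists_fun K).1 hmem
  have hx' : x = ∑ i, cf i • ((y i : B) : F) := by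
    have := congrArg (D.L n n).subtype hcf
    simp only [map_sum, map_smul, Submodule.subtype_apply] at this
    exact this.symm
  have hcA : ∀ i, cf i ∈ A :=
    (orthoFamily_sum_mem_iff h hyO cf).1 (by rw [← hx']; exact hxB)
  refine ⟨∑ i, cf i • (y1 i : F), (D.L n 0).sum_mem fun i _ => (D.L n 0).smul_mem _ (hy1 i),
    np_sum_smul_mem h _ cf _ (fun i _ => hcA i) (fun i _ => (y1 i).2),
    ∑ i, cf i • (y2 i : F), (D.LD n).sum_mem fun i _ => (D.LD n).smul_mem _ (hy2 i),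
    np_sum_smul_mem h _ cf _ (fun i _ => hcA i) (fun i _ => (y2 i).2),
    ∑ i, cf i • (y0 i : F), (D.L n0 n0).sum_mem fun i _ => (D.L n0 n0).smul_mem _ (hy0 i),
    np_sum_smul_mem h _ cf _ (fun i _ => hcA i) (fun i _ => (y0 i).2), ?_⟩
  rw [hx']
  simp only [hycoe, smul_add, Finset.sum_add_distrib]

/-- **Bounded torsion (BT).** -/
theorem boundedTorsion :
    ∃ c0 : K, c0 ≠ 0 ∧ c0 ∈ A ∧ ∀ x : F, (∃ n, x ∈ D.L (max n D.a0) n ∧ x ∈ B) →
      ∀ c : K, c ≠ 0 → c ∈ A →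
      (∃ y1 : F, (∃ n, y1 ∈ D.L n 0 ∧ y1 ∈ B) ∧ ∃ y2 : F, (∃ n, y2 ∈ D.LD n ∧ y2 ∈ B) ∧
        c • x = y1 + y2) →
      ∃ z1 : F, (∃ n, z1 ∈ D.L n 0 ∧ z1 ∈ B) ∧ ∃ z2 : F, (∃ n, z2 ∈ D.LD n ∧ z2 ∈ B) ∧
        c0 • x = z1 + z2 := by
  classical
  have hs : HasSphere K B I := hasSphere_of_hasOrthoBases ho
  -- the threshold
  set n0 : ℕ := max D.a0 D.c with hn0
  have ha0 : D.a0 ≤ n0 := le_max_left _ _
  have hcn0 : D.c ≤ n0 := le_max_right _ _
  have h1 : D.c ≤ n0 * D.d1 := hcn0.trans (Nat.le_mul_of_pos_right _ D.d1_pos)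
  have h2 : D.c ≤ n0 * D.d2 := hcn0.trans (Nat.le_mul_of_pos_right _ D.d2_pos)
  -- the finite-dimensional space V' and its orthonormal basis
  have := D.L_fin n0 0
  have := D.LD_fin n0
  obtain ⟨e, heV, heB, hli, hspanV, hB, -⟩ := ho.exists_family (D.L n0 0 ⊔ D.LD n0)
  have hdecomp : ∀ i, ∃ p ∈ D.L n0 0, ∃ q ∈ D.LD n0, p + q = e i := fun i =>
    Submodule.mem_sup.1 (heV i)
  choose p hp q hq hpq using hdecomp
  obtain ⟨c0, hc00, hc0A, hc0⟩ := np_exists_common_denominator h hs Finset.univ p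
  have hc0p : ∀ i, c0 • p i ∈ B := fun i => hc0 i (Finset.mem_univ i)
  have hc0q : ∀ i, c0 • q i ∈ B := by
    intro i
    have : c0 • q i = c0 • e i - c0 • p i := by rw [← hpq i, smul_add]; ring
    rw [this]
    exact B.sub_mem (h.smul_mem_ball hc0A (heB i)) (hc0p i)
  refine ⟨c0, hc00, hc0A, ?_⟩
  rintro x ⟨n', hxL, hxB⟩ c hc0' hcA ⟨y1, ⟨a, hy1, hy1B⟩, y2, ⟨b, hy2, hy2B⟩, hsum⟩
  -- enlarge the level
  set N : ℕ := max (max n' D.a0) n0 with hN
  have hn0N : n0 ≤ N := le_max_right _ _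
  have hxN : x ∈ D.L N N :=
    D.L_mono (le_max_left _ _) ((le_max_left _ _).trans (le_max_left _ _)) hxL
  obtain ⟨x1, hx1, hx1B, x2, hx2, hx2B, x0, hx0, hx0B, hxeq⟩ :=
    D.generation h ho hR n0 N hn0N ha0 h1 h2 x hxN hxB
  -- `c • x0` decomposes
  have hcx0 : c • x0 = (y1 - c • x1) + (y2 - c • x2) := by
    have : c • x = c • x1 + c • x2 + c • x0 := by rw [hxeq, smul_add, smul_add]
    rw [hsum] at this
    linear_combination (-1 : F) * this
  have hb1 : y1 - c • x1 ∈ D.L (max a N) 0 :=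
    (D.L _ 0).sub_mem (D.L_mono (le_max_left _ _) le_rfl hy1)
      ((D.L _ 0).smul_mem _ (D.L_mono (le_max_right _ _) le_rfl hx1))
  have hb2 : y2 - c • x2 ∈ D.LD (max b N) :=
    (D.LD _).sub_mem (D.LD_mono (le_max_left _ _) hy2)
      ((D.LD _).smul_mem _ (D.LD_mono (le_max_right _ _) hx2))
  have hb0 : (y1 - c • x1) + (y2 - c • x2) ∈ D.L n0 n0 := by
    rw [← hcx0]; exact (D.L n0 n0).smul_mem _ hx0
  obtain ⟨hb1', hb2'⟩ := D.book _ _ n0 ha0 _ hb1 _ hb2 hb0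
  have hx0V : x0 ∈ D.L n0 0 ⊔ D.LD n0 := by
    have : c • x0 ∈ D.L n0 0 ⊔ D.LD n0 := by
      rw [hcx0]; exact Submodule.add_mem_sup hb1' hb2'
    have h' := (D.L n0 0 ⊔ D.LD n0).smul_mem c⁻¹ this
    rwa [smul_smul, inv_mul_cancel₀ hc0', one_smul] at h'
  rw [← hspanV] at hx0V
  obtain ⟨cf, hcf⟩ := (Submodule.mem_span_range_iff_exists_fun K).1 hx0V
  have hx0' : x0 = ∑ i, cf i • e i := hcf.symm
  have hcfA : ∀ i, cf i ∈ A := (hB cf).1 (by rw [← hx0']; exact hx0B)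
  refine ⟨c0 • x1 + ∑ i, cf i • (c0 • p i), ⟨N, ?_, ?_⟩,
    c0 • x2 + ∑ i, cf i • (c0 • q i), ⟨N, ?_, ?_⟩, ?_⟩
  · exact (D.L N 0).add_mem ((D.L N 0).smul_mem _ hx1)
      ((D.L N 0).sum_mem fun i _ => (D.L N 0).smul_mem _
        ((D.L N 0).smul_mem _ (D.L_mono hn0N le_rfl (hp i))))
  · exact B.add_mem (h.smul_mem_ball hc0A hx1B)
      (np_sum_smul_mem h _ cf _ (fun i _ => hcfA i) (fun i _ => hc0p i))
  · exact (D.LD N).add_mem ((D.LD N).smul_mem _ hx2)
      ((D.LD N).sum_mem fun i _ => (D.LD N).smul_mem _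
        ((D.LD N).smul_mem _ (D.LD_mono hn0N (hq i))))
  · exact B.add_mem (h.smul_mem_ball hc0A hx2B)
      (np_sum_smul_mem h _ cf _ (fun i _ => hcfA i) (fun i _ => hc0q i))
  · have hsumpq : ∑ i, cf i • (c0 • p i) + ∑ i, cf i • (c0 • q i) = c0 • x0 := by
      rw [hx0', Finset.smul_sum, ← Finset.sum_add_distrib]
      refine Finset.sum_congr rfl fun i _ => ?_
      rw [← hpq i, smul_add, smul_add, smul_comm c0 (cf i) (p i), smul_comm c0 (cf i) (q i)]
    rw [hxeq, smul_add, smul_add, ← hsumpq]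
    abel

end CoreDataNP

/-- **ABS-CORE over a norm pair (Claim 2).**  From the abstract two-fibre datum, `L(D) ≠ 0`. -/
theorem absCoreNP (h : IsNormPair A B I) (ho : HasOrthoBases A B I)
    (hR : IsRedSystem A B I res red h) (hrk : RankOne A) (D : CoreDataNP A B I res red) :
    ∃ a b : ℕ, ∃ x : F, x ≠ 0 ∧ x ∈ D.L a 0 ∧ x ∈ D.LD b := by
  have hs : HasSphere K B I := hasSphere_of_hasOrthoBases ho
  -- the lifted `β`
  have hcd : D.c ≤ D.c * D.d2 := Nat.le_mul_of_pos_right _ D.d2_pos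
  obtain ⟨β, hβ, hβred⟩ := D.squeeze_LD h ho hR D.c hcd (red 1)
    (D.Lt_mono le_rfl (Nat.zero_le _) D.one_mem_Lt)
  have hβI : (β : F) - 1 ∈ I := by
    have h0 : red (β - 1) = 0 := by rw [map_sub, hβred, sub_self]
    have := (hR.red_ker (β - 1)).mp h0
    simpa using this
  exact twoChartNP h hs hrk D.m (np_natCast_isBallUnit hR D.hm)
    (fun n => D.L n 0) D.LD (fun n => D.L 0 n) (fun n => D.L (max n D.a0) n)
    (fun _ _ hab => D.L_mono hab le_rfl) (fun _ _ hab => D.LD_mono hab)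
    (fun _ _ hab => D.L_mono le_rfl hab)
    (fun _ _ hab => D.L_mono (max_le_max hab le_rfl) hab)
    (fun n => D.L_mono (le_max_left _ _) (Nat.zero_le _))
    (fun n => (D.LD_le n).trans (D.L_mono (le_max_right _ _) le_rfl))
    (fun n => D.L_mono (Nat.zero_le _) le_rfl)
    D.one_mem D.one_mem
    (fun a b x hx y hy => by simpa using D.L_mul a 0 b 0 x hx y hy)
    (fun a b x hx y hy => by simpa using D.L_mul 0 a 0 b x hx y hy)
    (fun a b x hx y hy => D.LD_mul a b x hx y hy)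
    (D.boundedTorsion h ho hR)
    D.u D.n1 D.u_mem D.u_val β D.c hβ hβI (D.u_trick D.c β hβ)

end Fermat.Agent.GK.Core
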