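/-
GATE-K / N10, `Σ ≠ ∅` (helper39): **connectedness of the special fibre**, abstract form over an
ultrametric norm pair.

`CoreDataNP.idem_const` : in helper30's abstract two-fibre lattice datum `CoreDataNP`
(`GK/Core/AbsCoreNP.lean`) with a MULTIPLICATIVE reduction `redR : B →+* Λ`, with
`L(bE₂) ⊆ LD b` and `L(aE₁) ∩ LD b ⊆ K` (the case `γ = 1`), every idempotent `ξ` of the degree-zero
special-fibre space `Lt 0 0` is the reduction of a constant.

Proof: lift `ξ` to `x ∈ B ∩ L(aE₁)` and `x' ∈ B ∩ L(bE₂)` (`squeeze_L`), refine both to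
approximate idempotents `e`, `e'` of high precision by the Newton step `E ↦ 3E² - 2E³`
(`exists_idem_approx`, a ring identity); then `(e - e')(e + e' - 1) = (e² - e) - (e'² - e')` with
`e + e' - 1` a unit of the ball, so `e - e'` is divisible by `c₀π`; bounded torsion
(`CoreDataNP.boundedTorsion`) gives `e - e' = π (z₁ + z₂)`, and `e - π z₁ = e' + π z₂` is a constant
reducing to `ξ`.
-/
import Mathlib
import Fermat.Agent.GK.Core.AbsCoreNP

set_option autoImplicit false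

namespace Fermat.Agent.GK.Core

open Module Fermat.Agent.GK.MultiVal

/-- **Newton refinement of an approximate idempotent** (pure ring identity). -/
theorem exists_idem_approx {S : Type*} [CommRing S] (e : S) (n : ℕ) :
    ∃ E r s : S, E = e + (e ^ 2 - e) * r ∧ E ^ 2 - E = (e ^ 2 - e) ^ (n + 1) * s := by
  induction n with
  | zero => exact ⟨e, 0, 1, by ring, by ring⟩
  | succ n ih =>
    obtain ⟨E, r, s, h1, h2⟩ := ih
    refine ⟨3 * E ^ 2 - 2 * E ^ 3, r - (e ^ 2 - e) ^ n * s * (2 * E - 1),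
      (e ^ 2 - e) ^ n * s ^ 2 * (4 * E ^ 2 - 4 * E - 3), ?_, ?_⟩
    · linear_combination h1 - (2 * E - 1) * h2
    · linear_combination
        (4 * E ^ 2 - 4 * E - 3) * (E ^ 2 - E + (e ^ 2 - e) ^ (n + 1) * s) * h2

variable {K F : Type*} [Field K] [Field F] [Algebra K F]
variable {k Λ : Type*} [Field k] [CommRing Λ] [Algebra k Λ]
variable {A : ValuationSubring K} {B : Subring F} {I : AddSubgroup F} {res : A →+* k}

/-- **Connectedness, abstract form.**  Every idempotent of `Lt 0 0` is the reduction of a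
constant. -/
theorem CoreDataNP.idem_const (redR : B →+* Λ)
    (D : CoreDataNP A B I res redR.toAddMonoidHom)
    (h : IsNormPair A B I) (ho : HasOrthoBases A B I)
    (hR : IsRedSystem A B I res redR.toAddMonoidHom h) (hrk : RankOne A)
    (hLD : ∀ b, D.L 0 b ≤ D.LD b)
    (hconst : ∀ a b x, x ∈ D.L a 0 → x ∈ D.LD b → ∃ κ : K, x = algebraMap K F κ)
    {ξ : Λ} (hξ : ξ ∈ D.Lt 0 0) (hid : ξ * ξ = ξ) :
    ∃ (κ : K) (hκ : algebraMap K F κ ∈ B), redR ⟨algebraMap K F κ, hκ⟩ = ξ := by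
  classical
  have hs : HasSphere K B I := hasSphere_of_hasOrthoBases ho
  obtain ⟨c0, hc00, hc0A, hBT⟩ := D.boundedTorsion h ho hR
  -- `red` as a function, kernel
  have hker : ∀ y : B, redR y = 0 ↔ (y : F) ∈ I := fun y => hR.red_ker y
  have hred_eq : ∀ y y' : B, (y : F) - (y' : F) ∈ I → redR y = redR y' := by
    intro y y' hyy
    have : redR (y - y') = 0 := (hker (y - y')).2 (by simpa using hyy)
    rwa [map_sub, sub_eq_zero] at this
  -- the two lifts
  set n1 : ℕ := D.c with hn1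
  have hd1 : n1 ≤ n1 * D.d1 := Nat.le_mul_of_pos_right _ D.d1_pos
  have hd2 : n1 ≤ n1 * D.d2 := Nat.le_mul_of_pos_right _ D.d2_pos
  obtain ⟨x, hxL, hxξ⟩ := (D.squeeze_L h ho hR n1 0 (by omega)).2.2 ξ
    (D.Lt_mono (Nat.zero_le _) le_rfl hξ)
  obtain ⟨x', hx'L, hx'ξ⟩ := (D.squeeze_L h ho hR 0 n1 (by omega)).2.2 ξ
    (D.Lt_mono le_rfl (Nat.zero_le _) hξ)
  have hxξ' : redR x = ξ := hxξ
  have hx'ξ' : redR x' = ξ := hx'ξ
  -- the final step, for any pair of a good element `w`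
  have hfin : ∀ w : F, (∃ a, w ∈ D.L a 0) → (∃ b, w ∈ D.LD b) → ∀ hw : w ∈ B,
      w - (x : F) ∈ I → ∃ (κ : K) (hκ : algebraMap K F κ ∈ B),
        redR ⟨algebraMap K F κ, hκ⟩ = ξ := by
    rintro w ⟨a, hwa⟩ ⟨b, hwb⟩ hw hwx
    obtain ⟨κ, rfl⟩ := hconst a b w hwa hwb
    exact ⟨κ, hw, by rw [← hxξ']; exact hred_eq ⟨_, hw⟩ x hwx⟩
  by_cases hxx : (x : F) = (x' : F)
  · exact hfin (x : F) ⟨n1, hxL⟩ ⟨n1, hLD n1 (hxx ▸ hx'L)⟩ x.2 (by rw [sub_self]; exact I.zero_mem)
  -- `δ = x - x'` is a nonzero element of `I`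
  have hδI : (x : F) - (x' : F) ∈ I := by
    have : redR (x - x') = 0 := by rw [map_sub, hxξ', hx'ξ', sub_self]
    have := (hker (x - x')).1 this
    simpa using this
  have hδ0 : (x : F) - (x' : F) ≠ 0 := sub_ne_zero.2 hxx
  obtain ⟨π, u, hπ0, huB, huI, hδu⟩ := hs _ hδ0
  have hπn : π ∈ A.nonunits := np_coeff_nonunit h hδI huI hδu
  have hπA : π ∈ A := by
    have := (A.mem_nonunits_iff).1 hπn
    exact (A.valuation_le_one_iff π).1 this.le
  set c_ : K := c0 * π with hc_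
  have hc_0 : c_ ≠ 0 := mul_ne_zero hc00 hπ0
  have hc_A : c_ ∈ A := A.mul_mem _ _ hc0A hπA
  -- the two subrings
  let S1 : Subring F := ballSubringNP B (fun n => D.L n 0)
    (fun a b hab => D.L_mono hab le_rfl) D.one_mem
    (fun a b y hy z hz => D.L_mul a 0 b 0 y hy z hz)
  let S2 : Subring F := ballSubringNP B (fun n => D.L 0 n)
    (fun a b hab => D.L_mono le_rfl hab) D.one_mem
    (fun a b y hy z hz => D.L_mul 0 a 0 b y hy z hz)
  -- the errors
  have hηI : (x : F) ^ 2 - (x : F) ∈ I := by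
    have : redR (x ^ 2 - x) = 0 := by rw [map_sub, map_pow, hxξ', pow_two, hid, sub_self]
    have := (hker (x ^ 2 - x)).1 this
    simpa using this
  have hη'I : (x' : F) ^ 2 - (x' : F) ∈ I := by
    have : redR (x' ^ 2 - x') = 0 := by rw [map_sub, map_pow, hx'ξ', pow_two, hid, sub_self]
    have := (hker (x' ^ 2 - x')).1 this
    simpa using this
  obtain ⟨N1, hN1⟩ := np_pow_mem_smul h hs hrk hηI c_ hc_0
  obtain ⟨N2, hN2⟩ := np_pow_mem_smul h hs hrk hη'I c_ hc_0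
  set N : ℕ := max N1 N2 with hN
  obtain ⟨r1, hr1B, hr1⟩ := hN1 (N + 1) (by omega)
  obtain ⟨r2, hr2B, hr2⟩ := hN2 (N + 1) (by omega)
  -- the refined approximate idempotents
  obtain ⟨E, r, s, hE1, hE2⟩ := exists_idem_approx (⟨(x : F), n1, hxL, x.2⟩ : S1) N
  obtain ⟨E', r', s', hE'1, hE'2⟩ := exists_idem_approx (⟨(x' : F), n1, hx'L, x'.2⟩ : S2) N
  have hE1F : (E : F) = (x : F) + ((x : F) ^ 2 - (x : F)) * (r : F) := by
    have := congrArg (fun y : S1 => (y : F)) hE1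
    simpa using this
  have hE2F : (E : F) ^ 2 - (E : F) = ((x : F) ^ 2 - (x : F)) ^ (N + 1) * (s : F) := by
    have := congrArg (fun y : S1 => (y : F)) hE2
    simpa using this
  have hE'1F : (E' : F) = (x' : F) + ((x' : F) ^ 2 - (x' : F)) * (r' : F) := by
    have := congrArg (fun y : S2 => (y : F)) hE'1
    simpa using this
  have hE'2F : (E' : F) ^ 2 - (E' : F) = ((x' : F) ^ 2 - (x' : F)) ^ (N + 1) * (s' : F) := by
    have := congrArg (fun y : S2 => (y : F)) hE'2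
    simpa using this
  obtain ⟨aE, hEL, hEB⟩ := E.2
  obtain ⟨bE, hE'L, hE'B⟩ := E'.2
  have hrB : (r : F) ∈ B := r.2.choose_spec.2
  have hsB : (s : F) ∈ B := s.2.choose_spec.2
  have hr'B : (r' : F) ∈ B := r'.2.choose_spec.2
  have hs'B : (s' : F) ∈ B := s'.2.choose_spec.2
  obtain ⟨e, he⟩ : ∃ e : F, e = (E : F) := ⟨_, rfl⟩
  obtain ⟨e', he'⟩ : ∃ e' : F, e' = (E' : F) := ⟨_, rfl⟩
  rw [← he] at hE1F hE2F hEL hEB
  rw [← he'] at hE'1F hE'2F hE'L hE'B
  -- `e ≡ x`, `e' ≡ x'` modulo `I`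
  have hex : e - (x : F) ∈ I := by
    have : e - (x : F) = ((x : F) ^ 2 - (x : F)) * (r : F) := by rw [hE1F]; ring
    rw [this]
    exact np_mul_mem_right h hηI hrB
  have he'x' : e' - (x' : F) ∈ I := by
    have : e' - (x' : F) = ((x' : F) ^ 2 - (x' : F)) * (r' : F) := by rw [hE'1F]; ring
    rw [this]
    exact np_mul_mem_right h hη'I hr'B
  -- the unit `v = e + e' - 1`
  set v : F := e + e' - 1 with hv
  have hvB : v ∈ B := B.sub_mem (B.add_mem hEB hE'B) B.one_mem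
  have hv2 : v ^ 2 - 1 ∈ I := by
    set ι : F := (e - (x : F)) + (e' - (x' : F)) - ((x : F) - (x' : F)) with hι
    have hιI : ι ∈ I := I.sub_mem (I.add_mem hex he'x') hδI
    have hιB : ι ∈ B := h.le _ hιI
    have e1 : v ^ 2 - 1 = ((x : F) ^ 2 - (x : F)) * 4 + ι * (2 * (2 * (x : F) - 1) + ι) := by
      rw [hv, hι]; ring
    rw [e1]
    have h4 : (4 : F) ∈ B := by exact_mod_cast natCast_mem B 4
    have h2 : (2 : F) ∈ B := by exact_mod_cast natCast_mem B 2
    refine I.add_mem (np_mul_mem_right h hηI h4) (np_mul_mem_right h hιI ?_)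
    exact B.add_mem (B.mul_mem h2 (B.sub_mem (B.mul_mem h2 x.2) B.one_mem)) hιB
  have hv2u : IsBallUnit B (v ^ 2) := np_isBallUnit_of_sub_one h hs hv2
  have hv0 : v ≠ 0 := by
    intro h0
    exact hv2u.2.2 (by rw [h0]; ring)
  have hvinvB : v⁻¹ ∈ B := by
    have : v⁻¹ = v * (v ^ 2)⁻¹ := by
      field_simp
    rw [this]
    exact B.mul_mem hvB hv2u.2.1
  -- `e - e'` is divisible by `c_`
  set ρ : F := v⁻¹ * (r1 * (s : F) - r2 * (s' : F)) with hρ
  have hρB : ρ ∈ B :=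
    B.mul_mem hvinvB (B.sub_mem (B.mul_mem hr1B hsB) (B.mul_mem hr2B hs'B))
  have hee' : e - e' = algebraMap K F c_ * ρ := by
    have h1 : (e - e') * v = (e ^ 2 - e) - (e' ^ 2 - e') := by rw [hv]; ring
    have h2 : (e ^ 2 - e) - (e' ^ 2 - e') =
        algebraMap K F c_ * (r1 * (s : F) - r2 * (s' : F)) := by
      rw [hE2F, hE'2F, hr1, hr2]; ring
    rw [hρ]
    field_simp
    rw [h1, h2]
  -- `ρ` lies in a mixed space
  set M : ℕ := max aE bE with hM
  have heM : e ∈ D.L (max M D.a0) M :=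
    D.L_mono (le_trans (le_max_left _ _) (le_max_left _ _)) (Nat.zero_le _) hEL
  have he'M : e' ∈ D.L (max M D.a0) M :=
    D.L_mono (Nat.zero_le _) (le_max_right _ _) hE'L
  have hρM : ρ ∈ D.L (max M D.a0) M := by
    have : ρ = c_⁻¹ • (e - e') := by
      rw [hee', Algebra.smul_def, ← mul_assoc, ← map_mul, inv_mul_cancel₀ hc_0, map_one, one_mul]
    rw [this]
    exact (D.L _ _).smul_mem _ ((D.L _ _).sub_mem heM he'M)
  -- bounded torsion
  obtain ⟨z1, ⟨n2, hz1L, hz1B⟩, z2, ⟨n3, hz2L, hz2B⟩, hz⟩ := hBT ρ ⟨M, hρM, hρB⟩ c_ hc_0 hc_A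
    ⟨e, ⟨aE, hEL, hEB⟩, -e', ⟨bE, (D.LD bE).neg_mem (hLD bE hE'L), B.neg_mem hE'B⟩, by
      rw [Algebra.smul_def, ← hee']; ring⟩
  -- the constant
  have hsplit : e - e' = π • (z1 + z2) := by
    rw [hee', ← hz, hc_, smul_smul, Algebra.smul_def, mul_comm π c0]
  set w : F := e - π • z1 with hw
  have hw' : w = e' + π • z2 := by
    rw [hw]
    have := hsplit
    rw [smul_add] at this
    linear_combination this
  have hπz1B : π • z1 ∈ B := h.smul_mem_ball hπA hz1B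
  have hπz1I : π • z1 ∈ I := h.smul_mem_rad hπn hz1B
  have hwB : w ∈ B := B.sub_mem hEB hπz1B
  refine hfin w ⟨max aE n2, ?_⟩ ⟨max bE n3, ?_⟩ hwB ?_
  · exact (D.L _ 0).sub_mem (D.L_mono (le_max_left _ _) le_rfl hEL)
      ((D.L _ 0).smul_mem _ (D.L_mono (le_max_right _ _) le_rfl hz1L))
  · rw [hw']
    exact (D.LD _).add_mem (D.LD_mono (le_max_left _ _) (hLD bE hE'L))
      ((D.LD _).smul_mem _ (D.LD_mono (le_max_right _ _) hz2L))
  · have : w - (x : F) = (e - (x : F)) - π • z1 := by rw [hw]; ring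
    rw [this]
    exact I.sub_mem hex hπz1I

end Fermat.Agent.GK.Core
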