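/-
GATE-K / N9-INST-T (helper33): the UNIT TWIST.

The special-fibre half of helper39's `CoreFam` (GK/Lattice/AbsCoreFam.lean) needs spaces
`Lt a b = L~(a E₁~ + b E₂~)` on the (nodal, two-component) special fibre, where `E₁` is a sum of
full fibres of the chart `j` (possibly through the nodes) and `E₂` is one more fibre.  All the
landed nodal material is for poles at the cusps only: `T n = L~(n (j)_∞)`.

This file produces `Lt a b` and all its `CoreFam` fields from the cusp-only family `T n`, by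
twisting with the two functions `p₁ = ∏ (s - σ)^{mult σ}` and `p₂ = s - t₂` (`s = rd j`), which
are units of the total ring of fractions `κ`:

  `Lt a b := { z | z * p₁^a * p₂^b ∈ T (a * e₁ + b * e₂) }`.

* `ChartPair` : the two affine charts `Bt` (finite chart) and `Binf` (chart at infinity) inside
  `κ`, with `s ∈ Bt`, `s⁻¹ ∈ Binf`; `T n = { z ∈ Bt | z / s^n ∈ Binf }`.
* `TwistPair` : `p₁`, `p₂` with `pᵢ ∈ T eᵢ`, units of `κ`, coprime in `Bt`, and `pᵢ / s^{eᵢ}`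
  coprime in `Binf`.
* `Lt_mono`, `Lt_inf`, `one_mem_Lt`, `finrank_Lt`, `Lt_fin`, `dim_Lt`.
* `ofRoots` : the `TwistPair` attached to a finite set of roots with multiplicities, an extra
  multiplicity `r` at infinity, and `t₂` outside the roots.
* `rd_mem_Lt` : the reduction statement `red_L` / `red_LD` in hypothesis form.

Mathlib only.
-/
import Mathlib

set_option autoImplicit false

namespace Fermat.Agent.GK.Core.Twist

open Module

variable {k κ : Type*} [Field k] [CommRing κ] [Algebra k κ]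

/-- Two affine charts of the special fibre inside the total ring of fractions `κ`:
`Bt` the finite chart, `Binf` the chart at infinity, `s` the chart function (`s ∈ Bt`,
`s⁻¹ ∈ Binf`). -/
structure ChartPair (k κ : Type*) [Field k] [CommRing κ] [Algebra k κ] where
  Bt : Subalgebra k κ
  Binf : Subalgebra k κ
  s : κ
  sinv : κ
  s_mul_sinv : s * sinv = 1
  s_mem : s ∈ Bt
  sinv_mem : sinv ∈ Binf

namespace ChartPair

variable (P : ChartPair k κ)

/-- `T n = L~(n (s)_∞)`: regular on the finite chart, pole of order `≤ n` along `s = ∞`. -/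
def T (n : ℕ) : Submodule k κ where
  carrier := {z | z ∈ P.Bt ∧ z * P.sinv ^ n ∈ P.Binf}
  add_mem' := by
    rintro x y ⟨hx1, hx2⟩ ⟨hy1, hy2⟩
    refine ⟨add_mem hx1 hy1, ?_⟩
    rw [add_mul]
    exact add_mem hx2 hy2
  zero_mem' := ⟨zero_mem _, by rw [zero_mul]; exact zero_mem _⟩
  smul_mem' := by
    rintro c x ⟨hx1, hx2⟩
    refine ⟨P.Bt.smul_mem hx1 c, ?_⟩
    rw [smul_mul_assoc]
    exact P.Binf.smul_mem hx2 c

theorem mem_T {n : ℕ} {z : κ} : z ∈ P.T n ↔ z ∈ P.Bt ∧ z * P.sinv ^ n ∈ P.Binf := Iff.rfl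

theorem T_mono {n n' : ℕ} (h : n ≤ n') : P.T n ≤ P.T n' := by
  rintro z ⟨h1, h2⟩
  refine ⟨h1, ?_⟩
  obtain ⟨d, rfl⟩ := Nat.exists_eq_add_of_le h
  rw [pow_add, ← mul_assoc]
  exact mul_mem h2 (pow_mem P.sinv_mem d)

theorem mul_mem_T {n n' : ℕ} {z z' : κ} (hz : z ∈ P.T n) (hz' : z' ∈ P.T n') :
    z * z' ∈ P.T (n + n') := by
  obtain ⟨h1, h2⟩ := hz
  obtain ⟨h1', h2'⟩ := hz'
  refine ⟨mul_mem h1 h1', ?_⟩
  have : z * z' * P.sinv ^ (n + n') = (z * P.sinv ^ n) * (z' * P.sinv ^ n') := by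
    rw [pow_add]; ring
  rw [this]
  exact mul_mem h2 h2'

theorem one_mem_T (n : ℕ) : (1 : κ) ∈ P.T n :=
  ⟨one_mem _, by rw [one_mul]; exact pow_mem P.sinv_mem n⟩

theorem pow_mem_T {n : ℕ} {z : κ} (hz : z ∈ P.T n) (j : ℕ) : z ^ j ∈ P.T (j * n) := by
  induction j with
  | zero => rw [pow_zero, Nat.zero_mul]; exact P.one_mem_T 0
  | succ j ih =>
    rw [pow_succ, Nat.succ_mul]
    exact P.mul_mem_T ih hz

theorem algebraMap_mem_T (c : k) (n : ℕ) : algebraMap k κ c ∈ P.T n :=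
  ⟨P.Bt.algebraMap_mem c, mul_mem (P.Binf.algebraMap_mem c) (pow_mem P.sinv_mem n)⟩

theorem s_mem_T : P.s ∈ P.T 1 :=
  ⟨P.s_mem, by rw [pow_one, P.s_mul_sinv]; exact one_mem _⟩

theorem s_sub_mem_T (c : k) : P.s - algebraMap k κ c ∈ P.T 1 :=
  sub_mem P.s_mem_T (P.algebraMap_mem_T c 1)

theorem s_sub_mul_sinv (c : k) :
    (P.s - algebraMap k κ c) * P.sinv = 1 - algebraMap k κ c * P.sinv := by
  rw [sub_mul, P.s_mul_sinv]

end ChartPair

/-- if `w * q₁^y` and `w * q₂^x` lie in the subalgebra `B` and `q₁`, `q₂` are coprime in `B`,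
then `w ∈ B` -/
theorem mem_of_mul_pow_mem_of_isCoprime (B : Subalgebra k κ) {w q1 q2 : κ}
    (h1 : q1 ∈ B) (h2 : q2 ∈ B) (hc : IsCoprime (⟨q1, h1⟩ : B) ⟨q2, h2⟩) (x y : ℕ)
    (hw1 : w * q1 ^ y ∈ B) (hw2 : w * q2 ^ x ∈ B) : w ∈ B := by
  obtain ⟨u, v, huv⟩ := (hc.pow (m := y) (n := x))
  have h : (u : κ) * q1 ^ y + (v : κ) * q2 ^ x = 1 := by
    have := congrArg (Subtype.val) huv
    simpa using this
  have hw : w = (u : κ) * (w * q1 ^ y) + (v : κ) * (w * q2 ^ x) := by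
    calc w = w * ((u : κ) * q1 ^ y + (v : κ) * q2 ^ x) := by rw [h, mul_one]
      _ = _ := by ring
  rw [hw]
  exact add_mem (mul_mem u.2 hw1) (mul_mem v.2 hw2)

/-- The twisting pair: `p₁ ∈ T e₁`, `p₂ ∈ T e₂`, units of `κ`, coprime on both charts. -/
structure TwistPair (P : ChartPair k κ) where
  p1 : κ
  p2 : κ
  e1 : ℕ
  e2 : ℕ
  p1_fin : p1 ∈ P.Bt
  p2_fin : p2 ∈ P.Bt
  p1_inf : p1 * P.sinv ^ e1 ∈ P.Binf
  p2_inf : p2 * P.sinv ^ e2 ∈ P.Binf
  unit1 : IsUnit p1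
  unit2 : IsUnit p2
  cop_fin : IsCoprime (⟨p1, p1_fin⟩ : P.Bt) ⟨p2, p2_fin⟩
  cop_inf : IsCoprime (⟨p1 * P.sinv ^ e1, p1_inf⟩ : P.Binf) ⟨p2 * P.sinv ^ e2, p2_inf⟩

namespace TwistPair

variable {P : ChartPair k κ} (Q : TwistPair P)

theorem p1_mem : Q.p1 ∈ P.T Q.e1 := ⟨Q.p1_fin, Q.p1_inf⟩

theorem p2_mem : Q.p2 ∈ P.T Q.e2 := ⟨Q.p2_fin, Q.p2_inf⟩

/-- the twisting unit `p₁^a p₂^b` -/
def tw (a b : ℕ) : κ := Q.p1 ^ a * Q.p2 ^ b

theorem tw_isUnit (a b : ℕ) : IsUnit (Q.tw a b) :=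
  (Q.unit1.pow a).mul (Q.unit2.pow b)

theorem tw_mem (a b : ℕ) : Q.tw a b ∈ P.T (a * Q.e1 + b * Q.e2) :=
  P.mul_mem_T (P.pow_mem_T Q.p1_mem a) (P.pow_mem_T Q.p2_mem b)

theorem tw_add (a b a' b' : ℕ) : Q.tw (a + a') (b + b') = Q.tw a b * Q.tw a' b' := by
  unfold tw
  rw [pow_add, pow_add]
  ring

/-- **The twisted spaces** `Lt a b = L~(a E₁~ + b E₂~)`, `Eᵢ~ = ` zeros of `pᵢ`. -/
def Lt (a b : ℕ) : Submodule k κ where
  carrier := {z | z * Q.tw a b ∈ P.T (a * Q.e1 + b * Q.e2)}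
  add_mem' := by
    intro x y hx hy
    simp only [Set.mem_ofPred_eq] at hx hy ⊢
    rw [add_mul]
    exact add_mem hx hy
  zero_mem' := by
    simp only [Set.mem_ofPred_eq]
    rw [zero_mul]
    exact zero_mem _
  smul_mem' := by
    intro c x hx
    simp only [Set.mem_ofPred_eq] at hx ⊢
    rw [smul_mul_assoc]
    exact Submodule.smul_mem _ c hx

theorem mem_Lt {a b : ℕ} {z : κ} :
    z ∈ Q.Lt a b ↔ z * Q.tw a b ∈ P.T (a * Q.e1 + b * Q.e2) := Iff.rfl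

theorem mem_Lt' {a b : ℕ} {z : κ} :
    z ∈ Q.Lt a b ↔ z * Q.p1 ^ a * Q.p2 ^ b ∈ P.T (a * Q.e1 + b * Q.e2) := by
  rw [mem_Lt, tw, mul_assoc]

theorem Lt_mono {a a' b b' : ℕ} (ha : a ≤ a') (hb : b ≤ b') : Q.Lt a b ≤ Q.Lt a' b' := by
  intro z hz
  obtain ⟨da, rfl⟩ := Nat.exists_eq_add_of_le ha
  obtain ⟨db, rfl⟩ := Nat.exists_eq_add_of_le hb
  rw [mem_Lt, tw_add, ← mul_assoc]
  have := P.mul_mem_T ((Q.mem_Lt).1 hz) (Q.tw_mem da db)
  have e : a * Q.e1 + b * Q.e2 + (da * Q.e1 + db * Q.e2) = (a + da) * Q.e1 + (b + db) * Q.e2 := by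
    ring
  rwa [e] at this

theorem one_mem_Lt : (1 : κ) ∈ Q.Lt 0 0 := by
  rw [mem_Lt, one_mul]
  exact Q.tw_mem 0 0

/-- the mixed case of `Lt_inf` -/
theorem mem_Lt_mixed {a a' b b' : ℕ} (ha : a ≤ a') (hb : b' ≤ b) {z : κ}
    (h1 : z ∈ Q.Lt a b) (h2 : z ∈ Q.Lt a' b') : z ∈ Q.Lt a b' := by
  obtain ⟨y, rfl⟩ := Nat.exists_eq_add_of_le ha
  obtain ⟨x, rfl⟩ := Nat.exists_eq_add_of_le hb
  rw [mem_Lt'] at h1 h2 ⊢
  set w : κ := z * Q.p1 ^ a * Q.p2 ^ b' with hw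
  have e1 : z * Q.p1 ^ a * Q.p2 ^ (b' + x) = w * Q.p2 ^ x := by
    rw [hw, pow_add]; ring
  have e2 : z * Q.p1 ^ (a + y) * Q.p2 ^ b' = w * Q.p1 ^ y := by
    rw [hw, pow_add]; ring
  rw [e1] at h1
  rw [e2] at h2
  obtain ⟨h1f, h1i⟩ := h1
  obtain ⟨h2f, h2i⟩ := h2
  refine ⟨mem_of_mul_pow_mem_of_isCoprime P.Bt Q.p1_fin Q.p2_fin Q.cop_fin x y h2f h1f, ?_⟩
  -- the chart at infinity
  set n : ℕ := a * Q.e1 + b' * Q.e2 with hn
  have i1 : w * Q.p2 ^ x * P.sinv ^ (a * Q.e1 + (b' + x) * Q.e2) =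
      (w * P.sinv ^ n) * (Q.p2 * P.sinv ^ Q.e2) ^ x := by
    have : a * Q.e1 + (b' + x) * Q.e2 = n + Q.e2 * x := by rw [hn]; ring
    rw [this, pow_add, mul_pow, ← pow_mul]
    ring
  have i2 : w * Q.p1 ^ y * P.sinv ^ ((a + y) * Q.e1 + b' * Q.e2) =
      (w * P.sinv ^ n) * (Q.p1 * P.sinv ^ Q.e1) ^ y := by
    have : (a + y) * Q.e1 + b' * Q.e2 = n + Q.e1 * y := by rw [hn]; ring
    rw [this, pow_add, mul_pow, ← pow_mul]
    ring
  rw [i1] at h1i
  rw [i2] at h2i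
  exact mem_of_mul_pow_mem_of_isCoprime P.Binf Q.p1_inf Q.p2_inf Q.cop_inf x y h2i h1i

/-- **`Lt_inf`.** -/
theorem Lt_inf (a b a' b' : ℕ) : Q.Lt a b ⊓ Q.Lt a' b' = Q.Lt (min a a') (min b b') := by
  apply le_antisymm
  · rintro z ⟨h1, h2⟩
    rcases le_total a a' with ha | ha <;> rcases le_total b b' with hb | hb
    · rw [min_eq_left ha, min_eq_left hb]; exact h1
    · rw [min_eq_left ha, min_eq_right hb]; exact Q.mem_Lt_mixed ha hb h1 h2
    · rw [min_eq_right ha, min_eq_left hb]; exact Q.mem_Lt_mixed ha hb h2 h1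
    · rw [min_eq_right ha, min_eq_right hb]; exact h2
  · exact le_inf (Q.Lt_mono (min_le_left _ _) (min_le_left _ _))
      (Q.Lt_mono (min_le_right _ _) (min_le_right _ _))

/-- multiplication by the unit `p₁^a p₂^b`, as a linear automorphism of `κ` -/
noncomputable def twEquiv (a b : ℕ) : κ ≃ₗ[k] κ :=
  LinearEquiv.ofLinearMap (LinearMap.mulRight k (Q.tw a b))
    (LinearMap.mulRight k ((Q.tw_isUnit a b).unit⁻¹ : κˣ).1)
    (by
      ext z
      simp only [LinearMap.coe_comp, Function.comp_apply, LinearMap.mulRight_apply,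
        LinearMap.id_coe, id_eq]
      rw [mul_assoc, IsUnit.val_inv_mul, mul_one])
    (by
      ext z
      simp only [LinearMap.coe_comp, Function.comp_apply, LinearMap.mulRight_apply,
        LinearMap.id_coe, id_eq]
      rw [mul_assoc, IsUnit.mul_val_inv, mul_one])

theorem twEquiv_apply (a b : ℕ) (z : κ) : Q.twEquiv a b z = z * Q.tw a b := rfl

theorem Lt_eq_comap (a b : ℕ) :
    Q.Lt a b = (P.T (a * Q.e1 + b * Q.e2)).comap (Q.twEquiv a b : κ →ₗ[k] κ) := by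
  ext z
  rw [Submodule.mem_comap, mem_Lt]
  rfl

theorem Lt_eq_map (a b : ℕ) :
    Q.Lt a b = (P.T (a * Q.e1 + b * Q.e2)).map ((Q.twEquiv a b).symm : κ →ₗ[k] κ) := by
  rw [Lt_eq_comap, Submodule.map_equiv_eq_comap_symm, LinearEquiv.symm_symm]

theorem finrank_Lt (a b : ℕ) :
    finrank k (Q.Lt a b) = finrank k (P.T (a * Q.e1 + b * Q.e2)) := by
  rw [Lt_eq_map]
  exact LinearEquiv.finrank_map_eq _ _

theorem Lt_fin (hT : ∀ n, FiniteDimensional k (P.T n)) (a b : ℕ) :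
    FiniteDimensional k (Q.Lt a b) := by
  have := hT (a * Q.e1 + b * Q.e2)
  rw [Lt_eq_map]
  infer_instance

/-- **`dim_Lt`** in the `CoreFam` shape, with `d₁ = e₁ d`, `d₂ = e₂ d`, `c = c₀ d`. -/
theorem dim_Lt {d g c0 : ℕ} (hd : 0 < d)
    (hT : ∀ n, c0 ≤ n → finrank k (P.T n) + g ≤ n * d + 1) (a b : ℕ)
    (hc : c0 * d ≤ a * (Q.e1 * d) + b * (Q.e2 * d)) :
    finrank k (Q.Lt a b) + g ≤ a * (Q.e1 * d) + b * (Q.e2 * d) + 1 := by
  have h1 : a * (Q.e1 * d) + b * (Q.e2 * d) = (a * Q.e1 + b * Q.e2) * d := by ring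
  rw [h1] at hc ⊢
  have h2 : c0 ≤ a * Q.e1 + b * Q.e2 := Nat.le_of_mul_le_mul_right hc hd
  rw [finrank_Lt]
  exact hT _ h2

/-- the exact-dimension variant -/
theorem dim_Lt_eq {d g c0 : ℕ}
    (hT : ∀ n, c0 ≤ n → finrank k (P.T n) + g = n * d + 1) (a b : ℕ)
    (hc : c0 ≤ a * Q.e1 + b * Q.e2) :
    finrank k (Q.Lt a b) + g = a * (Q.e1 * d) + b * (Q.e2 * d) + 1 := by
  have h1 : a * (Q.e1 * d) + b * (Q.e2 * d) = (a * Q.e1 + b * Q.e2) * d := by ring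
  rw [h1, finrank_Lt]
  exact hT _ hc

/-- `Lt 0 b` and `Lt a 0` unfolded -/
theorem mem_Lt_zero_left {b : ℕ} {z : κ} :
    z ∈ Q.Lt 0 b ↔ z * Q.p2 ^ b ∈ P.T (b * Q.e2) := by
  rw [mem_Lt', pow_zero, mul_one, Nat.zero_mul, Nat.zero_add]

theorem mem_Lt_zero_right {a : ℕ} {z : κ} :
    z ∈ Q.Lt a 0 ↔ z * Q.p1 ^ a ∈ P.T (a * Q.e1) := by
  rw [mem_Lt', pow_zero, mul_one, Nat.zero_mul, Nat.add_zero]

/-! ### The reduction statements `red_L`, `red_LD` in hypothesis form -/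

section rd

variable {F : Type*} [CommRing F]

/-- `rd (Φ^a) = (rd Φ)^a` for a map multiplicative on the subring `S` -/
theorem rd_pow (rd : F → κ) (S : Subring F) (hone : rd 1 = 1)
    (hmul : ∀ x ∈ S, ∀ y ∈ S, rd (x * y) = rd x * rd y) {Φ : F} (hΦ : Φ ∈ S) (a : ℕ) :
    rd (Φ ^ a) = rd Φ ^ a := by
  induction a with
  | zero => rw [pow_zero, pow_zero, hone]
  | succ a ih => rw [pow_succ, pow_succ, hmul _ (pow_mem hΦ a) _ hΦ, ih]

/-- **`red_L` / `red_LD` from the cusp-only statement.**  If `x Φ₁^a Φ₂^b` lies in a set `Linf`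
whose integral elements reduce into `T (a e₁ + b e₂)`, then `rd x ∈ Lt a b`. -/
theorem rd_mem_Lt (rd : F → κ) (S : Subring F) (hone : rd 1 = 1)
    (hmul : ∀ x ∈ S, ∀ y ∈ S, rd (x * y) = rd x * rd y)
    {Φ1 Φ2 : F} (hΦ1 : Φ1 ∈ S) (hΦ2 : Φ2 ∈ S) (h1 : rd Φ1 = Q.p1) (h2 : rd Φ2 = Q.p2)
    {a b : ℕ} (Linf : Set F)
    (hT : ∀ x ∈ Linf, x ∈ S → rd x ∈ P.T (a * Q.e1 + b * Q.e2))
    {x : F} (hxS : x ∈ S) (hx : x * Φ1 ^ a * Φ2 ^ b ∈ Linf) : rd x ∈ Q.Lt a b := by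
  rw [mem_Lt']
  have hm : x * Φ1 ^ a * Φ2 ^ b ∈ S := mul_mem (mul_mem hxS (pow_mem hΦ1 a)) (pow_mem hΦ2 b)
  have := hT _ hx hm
  rwa [hmul _ (mul_mem hxS (pow_mem hΦ1 a)) _ (pow_mem hΦ2 b), hmul _ hxS _ (pow_mem hΦ1 a),
    rd_pow rd S hone hmul hΦ1, rd_pow rd S hone hmul hΦ2, h1, h2] at this

end rd

end TwistPair

/-! ### The twisting pair of a finite set of roots -/

namespace ChartPair

section roots

variable (P : ChartPair k κ)

/-- `x - c` as an element of the finite chart -/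
def linFin (c : k) : P.Bt := ⟨P.s - algebraMap k κ c, sub_mem P.s_mem (P.Bt.algebraMap_mem c)⟩

/-- `1 - c / s` as an element of the chart at infinity -/
def linInf (c : k) : P.Binf :=
  ⟨1 - algebraMap k κ c * P.sinv,
    sub_mem (one_mem _) (mul_mem (P.Binf.algebraMap_mem c) P.sinv_mem)⟩

/-- `1 / s` as an element of the chart at infinity -/
def sinvInf : P.Binf := ⟨P.sinv, P.sinv_mem⟩

theorem isCoprime_linFin {c c' : k} (h : c ≠ c') : IsCoprime (P.linFin c) (P.linFin c') := by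
  have hd : c' - c ≠ 0 := sub_ne_zero.mpr h.symm
  refine ⟨algebraMap k P.Bt (c' - c)⁻¹, -algebraMap k P.Bt (c' - c)⁻¹, ?_⟩
  apply Subtype.ext
  have hinv : algebraMap k κ (c' - c)⁻¹ * (algebraMap k κ c' - algebraMap k κ c) = 1 := by
    rw [← map_sub, ← map_mul, inv_mul_cancel₀ hd, map_one]
  simp only [linFin, Subalgebra.coe_add, Subalgebra.coe_mul, Subalgebra.coe_neg,
    Subalgebra.coe_algebraMap, Subalgebra.coe_one]
  linear_combination hinv

theorem isCoprime_linInf {c c' : k} (h : c ≠ c') : IsCoprime (P.linInf c) (P.linInf c') := by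
  have hd : c' - c ≠ 0 := sub_ne_zero.mpr h.symm
  refine ⟨algebraMap k P.Binf ((c' - c)⁻¹ * c'), -algebraMap k P.Binf ((c' - c)⁻¹ * c), ?_⟩
  apply Subtype.ext
  have hinv : algebraMap k κ (c' - c)⁻¹ * (algebraMap k κ c' - algebraMap k κ c) = 1 := by
    rw [← map_sub, ← map_mul, inv_mul_cancel₀ hd, map_one]
  simp only [linInf, Subalgebra.coe_add, Subalgebra.coe_mul, Subalgebra.coe_neg,
    Subalgebra.coe_algebraMap, Subalgebra.coe_one, map_mul]
  linear_combination (1 : κ) * hinv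

theorem isCoprime_sinvInf (c : k) : IsCoprime (P.sinvInf) (P.linInf c) := by
  refine ⟨algebraMap k P.Binf c, 1, ?_⟩
  apply Subtype.ext
  simp only [linInf, sinvInf, Subalgebra.coe_add, Subalgebra.coe_mul,
    Subalgebra.coe_algebraMap, Subalgebra.coe_one]
  ring

variable (Tt : Finset k) (mult : k → ℕ) (r : ℕ) (t2 : k)

/-- `p₁ = ∏_{σ ∈ Tt} (s - σ)^{mult σ}` on the finite chart -/
def rootsFin : P.Bt := ∏ σ ∈ Tt, P.linFin σ ^ mult σ

/-- `p₁ / s^{e₁} = s^{-r} ∏ (1 - σ/s)^{mult σ}` on the chart at infinity -/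
def rootsInf : P.Binf := P.sinvInf ^ r * ∏ σ ∈ Tt, P.linInf σ ^ mult σ

/-- the virtual degree `e₁ = r + ∑ mult σ` -/
def rootsDeg : ℕ := r + ∑ σ ∈ Tt, mult σ

theorem rootsFin_mul_sinv_pow :
    (P.rootsFin Tt mult : κ) * P.sinv ^ rootsDeg Tt mult r = (P.rootsInf Tt mult r : κ) := by
  classical
  unfold rootsFin rootsInf rootsDeg
  rw [pow_add, Subalgebra.coe_mul, Subalgebra.coe_pow]
  have : ∀ (U : Finset k), ((∏ σ ∈ U, P.linFin σ ^ mult σ : P.Bt) : κ) * P.sinv ^ (∑ σ ∈ U, mult σ)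
      = ((∏ σ ∈ U, P.linInf σ ^ mult σ : P.Binf) : κ) := by
    intro U
    induction U using Finset.induction_on with
    | empty => simp
    | insert a U ha ih =>
      rw [Finset.prod_insert ha, Finset.prod_insert ha, Finset.sum_insert ha, pow_add,
        Subalgebra.coe_mul, Subalgebra.coe_mul, ← ih, Subalgebra.coe_pow, Subalgebra.coe_pow]
      have h1 : ((P.linFin a : P.Bt) : κ) * P.sinv = ((P.linInf a : P.Binf) : κ) :=
        P.s_sub_mul_sinv a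
      rw [← h1, mul_pow]
      ring
  rw [← this Tt]
  simp only [sinvInf]
  ring

theorem isCoprime_rootsFin (ht2 : t2 ∉ Tt) : IsCoprime (P.rootsFin Tt mult) (P.linFin t2) := by
  unfold rootsFin
  refine IsCoprime.prod_left fun σ hσ => IsCoprime.pow_left (P.isCoprime_linFin ?_)
  rintro rfl
  exact ht2 hσ

theorem isCoprime_rootsInf (ht2 : t2 ∉ Tt) :
    IsCoprime (P.rootsInf Tt mult r) (P.linInf t2) := by
  unfold rootsInf
  refine IsCoprime.mul_left (IsCoprime.pow_left (P.isCoprime_sinvInf t2)) ?_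
  refine IsCoprime.prod_left fun σ hσ => IsCoprime.pow_left (P.isCoprime_linInf ?_)
  rintro rfl
  exact ht2 hσ

/-- **The twisting pair of a set of roots.**  `p₁ = ∏_{σ ∈ Tt} (s - σ)^{mult σ}` with virtual
degree `e₁ = r + ∑ mult σ` (`r` = multiplicity of the fibre at infinity in `E₁`), `p₂ = s - t₂`
with `e₂ = 1`, for `t₂ ∉ Tt`. -/
noncomputable def ofRoots (ht2 : t2 ∉ Tt) (hunit : ∀ c : k, IsUnit (P.s - algebraMap k κ c)) :
    TwistPair P where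
  p1 := (P.rootsFin Tt mult : κ)
  p2 := (P.linFin t2 : κ)
  e1 := rootsDeg Tt mult r
  e2 := 1
  p1_fin := (P.rootsFin Tt mult).2
  p2_fin := (P.linFin t2).2
  p1_inf := by
    rw [rootsFin_mul_sinv_pow]
    exact (P.rootsInf Tt mult r).2
  p2_inf := by
    rw [pow_one]
    show (P.s - algebraMap k κ t2) * P.sinv ∈ P.Binf
    rw [P.s_sub_mul_sinv]
    exact (P.linInf t2).2
  unit1 := by
    unfold rootsFin
    rw [← Subalgebra.coe_val, map_prod]
    refine IsUnit.prod_iff.mpr ?_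
    intro σ _
    rw [map_pow]
    exact (hunit σ).pow _
  unit2 := hunit t2
  cop_fin := P.isCoprime_rootsFin Tt mult t2 ht2
  cop_inf := by
    have h := P.isCoprime_rootsInf Tt mult r t2 ht2
    have e1 : (⟨(P.rootsFin Tt mult : κ) * P.sinv ^ rootsDeg Tt mult r, by
        rw [rootsFin_mul_sinv_pow]; exact (P.rootsInf Tt mult r).2⟩ : P.Binf) =
        P.rootsInf Tt mult r := Subtype.ext (P.rootsFin_mul_sinv_pow Tt mult r)
    have e2 : (⟨(P.linFin t2 : κ) * P.sinv ^ 1, by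
        rw [pow_one]
        show (P.s - algebraMap k κ t2) * P.sinv ∈ P.Binf
        rw [P.s_sub_mul_sinv]
        exact (P.linInf t2).2⟩ : P.Binf) = P.linInf t2 := by
      apply Subtype.ext
      show (P.s - algebraMap k κ t2) * P.sinv ^ 1 = _
      rw [pow_one, P.s_sub_mul_sinv]
      rfl
    rw [e1, e2]
    exact h

theorem ofRoots_p1 (ht2 : t2 ∉ Tt) (hunit : ∀ c : k, IsUnit (P.s - algebraMap k κ c)) :
    (P.ofRoots Tt mult r t2 ht2 hunit).p1 = ∏ σ ∈ Tt, (P.s - algebraMap k κ σ) ^ mult σ := by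
  show ((P.rootsFin Tt mult : P.Bt) : κ) = _
  unfold rootsFin
  rw [← Subalgebra.coe_val, map_prod]
  refine Finset.prod_congr rfl fun σ _ => ?_
  rw [map_pow]
  rfl

theorem ofRoots_p2 (ht2 : t2 ∉ Tt) (hunit : ∀ c : k, IsUnit (P.s - algebraMap k κ c)) :
    (P.ofRoots Tt mult r t2 ht2 hunit).p2 = P.s - algebraMap k κ t2 := rfl

theorem ofRoots_e1 (ht2 : t2 ∉ Tt) (hunit : ∀ c : k, IsUnit (P.s - algebraMap k κ c)) :
    (P.ofRoots Tt mult r t2 ht2 hunit).e1 = r + ∑ σ ∈ Tt, mult σ := rfl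

theorem ofRoots_e2 (ht2 : t2 ∉ Tt) (hunit : ∀ c : k, IsUnit (P.s - algebraMap k κ c)) :
    (P.ofRoots Tt mult r t2 ht2 hunit).e2 = 1 := rfl

end roots

end ChartPair

end Fermat.Agent.GK.Core.Twist
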