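/-
GATE-K / N9-INST-T, nodal instance (helper33): helper34's Place-language graded family
`NodalGraded.T P Q D₁ D₂ n` (glued Riemann–Roch spaces of `n D`) IS the family `ChartPair.T n`
of a two-chart datum:

* `Bt`   := pairs regular off the supports of `D₁`, `D₂` and glued at the nodes (finite chart),
* `Binf` := pairs regular along the supports of `D₁`, `D₂` (chart at infinity),
* `s = (t₁, t₂)` with exact pole divisors `D₁`, `D₂`.

Hence every statement of `GK/Core/TwistLt.lean` (`Lt`, `Lt_inf`, `dim_Lt`, …) applies to the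
nodal graded family, with its dimension formula `NodalGraded.exists_finrank_T`.
-/
import Fermat.Agent.GK.NodalGraded
import Fermat.Agent.GK.Core.TwistLt

set_option autoImplicit false

noncomputable section

open AlgebraicCurve

namespace Fermat.Agent.GK.Core.TwistNodal

open Fermat.Agent.RRh45 Fermat.Agent.GK.NodalGraded Fermat.Agent.GK.Core.Twist

section One

variable {K F : Type*} [Field K] [Field F] [Algebra K F]

/-- functions regular at every place where the predicate `p` holds -/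
def regAt (p : Place K F → Prop) : Subalgebra K F where
  carrier := {f | ∀ v : Place K F, p v → f ∈ ordGE v 0}
  mul_mem' := by
    intro f g hf hg v hv
    simpa using mul_mem_ordGE v (hf v hv) (hg v hv)
  add_mem' := by
    intro f g hf hg v hv
    exact (ordGE v 0).add_mem (hf v hv) (hg v hv)
  algebraMap_mem' := by
    intro c v _
    exact algebraMap_mem_ordGE_zero v c

theorem mem_regAt {p : Place K F → Prop} {f : F} :
    f ∈ regAt p ↔ ∀ v : Place K F, p v → f ∈ ordGE v 0 := Iff.rfl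

/-- membership in `L(n D)` in two-chart form, for a function `t` with exact pole divisor `D` -/
theorem mem_rr_iff_charts {t : F} {D : Divisor K F} (h : ExactPoles t D) (n : ℕ) (f : F) :
    f ∈ riemannRochSpace (n • D) ↔
      f ∈ regAt (fun v : Place K F => D v = 0) ∧
        f * t⁻¹ ^ n ∈ regAt (fun v : Place K F => 0 < D v) := by
  have ht0 : t ≠ 0 := h.ne_zero
  have hti : (t⁻¹ ^ n : F) ≠ 0 := pow_ne_zero _ (inv_ne_zero ht0)
  have hnD : ∀ v : Place K F, (n • D) v = (n : ℤ) * D v := fun v => by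
    rw [Finsupp.smul_apply, nsmul_eq_mul]
  have hordt : ∀ v : Place K F, v.ord (t⁻¹ ^ n) = -((n : ℤ) * v.ord t) := by
    intro v
    have h1 := v.ord_zpow t⁻¹ (n : ℤ)
    rw [zpow_natCast] at h1
    rw [h1, v.ord_inv]
    ring
  rw [mem_riemannRochSpace_iff]
  constructor
  · intro hf
    refine ⟨fun v hv => ?_, fun v hv => ?_⟩
    · rcases hf v with h0 | h1
      · exact Or.inl h0
      · right
        rw [hnD, hv, mul_zero, neg_zero] at h1
        exact h1
    · by_cases hf0 : f = 0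
      · left; rw [hf0, zero_mul]
      right
      have h1 := (hf v).resolve_left hf0
      rw [v.ord_mul hf0 hti, hordt, h.ord_eq v hv]
      rw [hnD] at h1
      linarith
  · rintro ⟨h1, h2⟩ v
    by_cases hf0 : f = 0
    · exact Or.inl hf0
    right
    have h0 : 0 ≤ D v := Finsupp.le_def.mp h.nonneg v
    rw [hnD]
    rcases h0.lt_or_eq with hpos | hz
    · have h3 := (h2 v hpos).resolve_left (mul_ne_zero hf0 hti)
      rw [v.ord_mul hf0 hti, hordt, h.ord_eq v hpos] at h3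
      linarith
    · have h3 := (h1 v hz.symm).resolve_left hf0
      rw [← hz, mul_zero, neg_zero]
      exact h3

end One

section Two

variable {k F₁ F₂ : Type*} [Field k] [Field F₁] [Field F₂] [Algebra k F₁] [Algebra k F₂]
variable {ι : Type*}
variable (P : ι → Place k F₁) (Q : ι → Place k F₂)
variable (D₁ : Divisor k F₁) (D₂ : Divisor k F₂)

/-- the glueing condition at the nodes, as a subalgebra of `F₁ × F₂` -/
def glueAlg : Subalgebra k (F₁ × F₂) where
  carrier := {z | ∀ j, ∃ c : k, ValueAt (P j) z.1 c ∧ ValueAt (Q j) z.2 c}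
  mul_mem' := by
    intro z w hz hw j
    obtain ⟨a, ha1, ha2⟩ := hz j
    obtain ⟨c, hc1, hc2⟩ := hw j
    exact ⟨a * c, ha1.mul hc1, ha2.mul hc2⟩
  add_mem' := by
    intro z w hz hw j
    obtain ⟨a, ha1, ha2⟩ := hz j
    obtain ⟨c, hc1, hc2⟩ := hw j
    exact ⟨a + c, ha1.add hc1, ha2.add hc2⟩
  algebraMap_mem' := by
    intro r j
    refine ⟨r, ?_, ?_⟩
    · show ValueAt (P j) (algebraMap k F₁ r) r
      unfold ValueAt
      rw [sub_self]
      exact (ordGE (P j) 1).zero_mem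
    · show ValueAt (Q j) (algebraMap k F₂ r) r
      unfold ValueAt
      rw [sub_self]
      exact (ordGE (Q j) 1).zero_mem

/-- the finite chart: regular off `D₁`, `D₂`, glued at the nodes -/
def Bt : Subalgebra k (F₁ × F₂) :=
  ((regAt (fun v : Place k F₁ => D₁ v = 0)).prod (regAt (fun v : Place k F₂ => D₂ v = 0))) ⊓
    glueAlg P Q

/-- the chart at infinity: regular along `D₁`, `D₂` -/
def Binf : Subalgebra k (F₁ × F₂) :=
  (regAt (fun v : Place k F₁ => 0 < D₁ v)).prod (regAt (fun v : Place k F₂ => 0 < D₂ v))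

variable {P Q D₁ D₂} {t₁ : F₁} {t₂ : F₂}

/-- **the two-chart datum of the nodal graded family** -/
def chartPair (ht₁ : ExactPoles t₁ D₁) (ht₂ : ExactPoles t₂ D₂)
    (hs : ((t₁, t₂) : F₁ × F₂) ∈ T P Q D₁ D₂ 1) : ChartPair k (F₁ × F₂) where
  Bt := Bt P Q D₁ D₂
  Binf := Binf D₁ D₂
  s := (t₁, t₂)
  sinv := (t₁⁻¹, t₂⁻¹)
  s_mul_sinv := by
    rw [Prod.mk_mul_mk, mul_inv_cancel₀ ht₁.ne_zero, mul_inv_cancel₀ ht₂.ne_zero]
    rfl
  s_mem := by
    obtain ⟨h1, h2, h3⟩ := hs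
    refine ⟨⟨?_, ?_⟩, h3⟩
    · have := ((mem_rr_iff_charts ht₁ 1 t₁).mp h1).1
      exact this
    · have := ((mem_rr_iff_charts ht₂ 1 t₂).mp h2).1
      exact this
  sinv_mem := by
    refine ⟨fun v hv => ?_, fun v hv => ?_⟩
    · right
      show (0 : ℤ) ≤ v.ord t₁⁻¹
      rw [v.ord_inv, ht₁.ord_eq v hv]
      linarith
    · right
      show (0 : ℤ) ≤ v.ord t₂⁻¹
      rw [v.ord_inv, ht₂.ord_eq v hv]
      linarith

@[simp] theorem chartPair_s (ht₁ : ExactPoles t₁ D₁) (ht₂ : ExactPoles t₂ D₂)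
    (hs : ((t₁, t₂) : F₁ × F₂) ∈ T P Q D₁ D₂ 1) : (chartPair ht₁ ht₂ hs).s = (t₁, t₂) := rfl

@[simp] theorem chartPair_sinv (ht₁ : ExactPoles t₁ D₁) (ht₂ : ExactPoles t₂ D₂)
    (hs : ((t₁, t₂) : F₁ × F₂) ∈ T P Q D₁ D₂ 1) :
    (chartPair ht₁ ht₂ hs).sinv = (t₁⁻¹, t₂⁻¹) := rfl

/-- **`ChartPair.T n` of the nodal datum is helper34's glued Riemann–Roch space of `n D`.** -/
theorem chartPair_T (ht₁ : ExactPoles t₁ D₁) (ht₂ : ExactPoles t₂ D₂)
    (hs : ((t₁, t₂) : F₁ × F₂) ∈ T P Q D₁ D₂ 1) (n : ℕ) :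
    (chartPair ht₁ ht₂ hs).T n = T P Q D₁ D₂ n := by
  ext z
  rw [ChartPair.mem_T, mem_T, mem_rr_iff_charts ht₁ n z.1, mem_rr_iff_charts ht₂ n z.2]
  have e1 : (z * (chartPair ht₁ ht₂ hs).sinv ^ n).1 = z.1 * t₁⁻¹ ^ n := by
    rw [chartPair_sinv, Prod.fst_mul, Prod.pow_fst]
  have e2 : (z * (chartPair ht₁ ht₂ hs).sinv ^ n).2 = z.2 * t₂⁻¹ ^ n := by
    rw [chartPair_sinv, Prod.snd_mul, Prod.pow_snd]
  constructor
  · rintro ⟨⟨⟨a1, a2⟩, a3⟩, ⟨b1, b2⟩⟩
    exact ⟨⟨a1, e1 ▸ b1⟩, ⟨a2, e2 ▸ b2⟩, a3⟩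
  · rintro ⟨⟨a1, b1⟩, ⟨a2, b2⟩, a3⟩
    exact ⟨⟨⟨a1, a2⟩, a3⟩, ⟨e1 ▸ b1, e2 ▸ b2⟩⟩

/-- `s - c` is a unit of `F₁ × F₂` when neither `t₁` nor `t₂` is constant -/
theorem isUnit_s_sub (ht₁ : ExactPoles t₁ D₁) (ht₂ : ExactPoles t₂ D₂)
    (hs : ((t₁, t₂) : F₁ × F₂) ∈ T P Q D₁ D₂ 1)
    (h1 : ∀ c : k, t₁ ≠ algebraMap k F₁ c) (h2 : ∀ c : k, t₂ ≠ algebraMap k F₂ c) (c : k) :
    IsUnit ((chartPair ht₁ ht₂ hs).s - algebraMap k (F₁ × F₂) c) := by
  rw [chartPair_s, Prod.isUnit_iff]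
  constructor
  · show IsUnit (t₁ - algebraMap k F₁ c)
    exact (sub_ne_zero.mpr (h1 c)).isUnit
  · show IsUnit (t₂ - algebraMap k F₂ c)
    exact (sub_ne_zero.mpr (h2 c)).isUnit

end Two

end Fermat.Agent.GK.Core.TwistNodal
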