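/-
GATE-K / CONNECTEDNESS, abstract half (helper30; hedge twin of helper39's planned `IdemNP`).

Over an ultrametric norm pair `(A, B, I)` with a multiplicative reduction `red : B →+* Λ` and the
abstract two-fibre lattice datum `CoreDataNP` for the TRIVIAL unit (`LD b = L 0 b`), every
idempotent `ξ` of the special fibre that lies in `Lt c 0 ⊓ Lt 0 c` is the reduction of a CONSTANT:

* lift `ξ` on both charts (`squeeze_L`), `x₁ ∈ B ∩ L(c E₁)`, `x₂ ∈ B ∩ L(c E₂)`;
* improve both lifts to idempotents modulo an arbitrary nonzero constant by the closed formula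
  `e = 1 - (1 - xⁿ)ⁿ` (`e ≡ 0 mod xⁿ`, `1 - e ≡ 0 mod (1 - x)ⁿ`, so `e - e² ∈ (x - x²)ⁿ S`;
  `exists_approx_idem`), inside the subrings `⋃ₙ B ∩ L(n E_i)`;
* `(e - e')(e + e' - 1) = (e' - e'²) - (e - e²)` and `e + e' - 1` is a ball unit, so
  `e - e' ∈ c₀ π B`; bounded torsion splits `(e - e') / π = z₁ + z₂`, and
  `e - π z₁ = e' + π z₂` has no poles, hence is a constant `κ` with `red κ = ξ`.
-/
import Fermat.Agent.GK.Core.AbsCoreNP

set_option autoImplicit false

namespace Fermat.Agent.GK.Core.IdemLift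

open Module Fermat.Agent.GK.MultiVal Fermat.Agent.GK.Core

variable {K F : Type*} [Field K] [Field F] [Algebra K F]
variable {k Λ : Type*} [Field k] [CommRing Λ] [Algebra k Λ]
variable {A : ValuationSubring K} {B : Subring F} {I : AddSubgroup F}

/-- **Approximate idempotents.**  A lift `x` of an idempotent `ξ` inside a subring `S ⊆ B` can be
improved, inside `S`, to a lift `e` with `e - e² ∈ c B` for any nonzero constant `c`. -/
theorem exists_approx_idem (h : IsNormPair A B I) (hs : HasSphere K B I) (hrk : RankOne A)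
    (red : B →+* Λ) (hker : ∀ y : B, red y = 0 → (y : F) ∈ I)
    (S : Subring F) (hSB : S ≤ B) {x : B} (hxS : (x : F) ∈ S) {ξ : Λ}
    (hξ : IsIdempotentElem ξ) (hx : red x = ξ) (c : K) (hc : c ≠ 0) :
    ∃ e : B, (e : F) ∈ S ∧ red e = ξ ∧ ∃ r ∈ B, (e : F) - e * e = algebraMap K F c * r := by
  have hδ : (x : F) - x * x ∈ I := by
    have h0 : red (x - x * x) = 0 := by rw [map_sub, map_mul, hx, hξ.eq, sub_self]
    simpa using hker _ h0
  obtain ⟨N, hN⟩ := np_pow_mem_smul h hs hrk hδ c hc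
  obtain ⟨r, hrB, hr⟩ := hN (N + 1) (Nat.le_succ N)
  -- work in the commutative ring `S`
  set xs : S := ⟨x, hxS⟩ with hxs
  have h1 : xs ^ (N + 1) ∣ 1 - (1 - xs ^ (N + 1)) ^ (N + 1) := by
    have := sub_dvd_pow_sub_pow (1 : S) (1 - xs ^ (N + 1)) (N + 1)
    rwa [one_pow, sub_sub_cancel] at this
  have h2 : (1 - xs) ^ (N + 1) ∣ (1 - xs ^ (N + 1)) ^ (N + 1) := by
    have := sub_dvd_pow_sub_pow (1 : S) xs (N + 1)
    rw [one_pow] at this
    exact pow_dvd_pow_of_dvd this (N + 1)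
  obtain ⟨u, hu⟩ := h1
  obtain ⟨w, hw⟩ := h2
  have key : (1 - (1 - xs ^ (N + 1)) ^ (N + 1)) -
      (1 - (1 - xs ^ (N + 1)) ^ (N + 1)) * (1 - (1 - xs ^ (N + 1)) ^ (N + 1)) =
      (xs - xs * xs) ^ (N + 1) * (u * w) := by
    have e2 : 1 - (1 - (1 - xs ^ (N + 1)) ^ (N + 1)) = (1 - xs) ^ (N + 1) * w := by
      rw [sub_sub_cancel]; exact hw
    calc (1 - (1 - xs ^ (N + 1)) ^ (N + 1)) -
          (1 - (1 - xs ^ (N + 1)) ^ (N + 1)) * (1 - (1 - xs ^ (N + 1)) ^ (N + 1))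
        = (1 - (1 - xs ^ (N + 1)) ^ (N + 1)) * (1 - (1 - (1 - xs ^ (N + 1)) ^ (N + 1))) := by
          ring
      _ = (xs ^ (N + 1) * u) * ((1 - xs) ^ (N + 1) * w) := by rw [e2, hu]
      _ = (xs - xs * xs) ^ (N + 1) * (u * w) := by
          have : xs - xs * xs = xs * (1 - xs) := by ring
          rw [this, mul_pow]; ring
  have keyF := congrArg (fun z : S => (z : F)) key
  push_cast at keyF
  have hxsF : (xs : F) = (x : F) := rfl
  rw [hxsF] at keyF
  refine ⟨1 - (1 - x ^ (N + 1)) ^ (N + 1), ?_, ?_, r * (u * w), ?_, ?_⟩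
  · have : (((1 - (1 - x ^ (N + 1)) ^ (N + 1) : B)) : F) =
        ((1 - (1 - xs ^ (N + 1)) ^ (N + 1) : S) : F) := by
      push_cast
      rfl
    rw [this]
    exact SetLike.coe_mem _
  · rw [map_sub, map_one, map_pow, map_sub, map_one, map_pow, hx, hξ.pow_succ_eq N,
      hξ.one_sub.pow_succ_eq N, sub_sub_cancel]
  · exact B.mul_mem hrB (B.mul_mem (hSB u.2) (hSB w.2))
  · push_cast
    rw [keyF, hr]
    ring

/-- in the degenerate case (no nonzero nonunit constant) the open ball is trivial -/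
theorem rad_eq_zero_of_forall (h : IsNormPair A B I) (hs : HasSphere K B I)
    (hπ : ¬ ∃ π : K, π ≠ 0 ∧ π ∈ A.nonunits) {y : F} (hy : y ∈ I) : y = 0 := by
  by_contra hy0
  obtain ⟨c, u, hc0, -, huI, hyu⟩ := hs y hy0
  exact hπ ⟨c, hc0, np_coeff_nonunit h hy huI hyu⟩

variable {res : A →+* k}

/-- **Idempotents of the special fibre are reductions of constants** (connectedness), for the
abstract two-fibre datum of the trivial unit. -/
theorem idem_eq_red_const (h : IsNormPair A B I) (ho : HasOrthoBases A B I) (red : B →+* Λ)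
    (hR : IsRedSystem A B I res red.toAddMonoidHom h) (hrk : RankOne A)
    (D : CoreDataNP A B I res red.toAddMonoidHom)
    (hLD : ∀ b, D.LD b = D.L 0 b)
    (hconst : ∀ (a b : ℕ) (x : F), x ∈ D.L a 0 → x ∈ D.L 0 b → ∃ c : K, x = algebraMap K F c)
    {ξ : Λ} (hξ : IsIdempotentElem ξ) (h1 : ξ ∈ D.Lt D.c 0) (h2 : ξ ∈ D.Lt 0 D.c) :
    ∃ κ : B, (∃ c : K, (κ : F) = algebraMap K F c) ∧ red κ = ξ := by
  classical
  have hs : HasSphere K B I := hasSphere_of_hasOrthoBases ho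
  have hker : ∀ y : B, red y = 0 → (y : F) ∈ I := fun y hy => (hR.red_ker y).1 hy
  have hker' : ∀ y : B, (y : F) ∈ I → red y = 0 := fun y hy => (hR.red_ker y).2 hy
  -- the two lifts
  have hc1 : D.c ≤ D.c * D.d1 + 0 * D.d2 := by
    have := Nat.le_mul_of_pos_right D.c D.d1_pos
    omega
  have hc2 : D.c ≤ 0 * D.d1 + D.c * D.d2 := by
    have := Nat.le_mul_of_pos_right D.c D.d2_pos
    omega
  obtain ⟨x1, hx1L, hx1red⟩ := (D.squeeze_L h ho hR D.c 0 hc1).2.2 ξ h1
  obtain ⟨x2, hx2L, hx2red⟩ := (D.squeeze_L h ho hR 0 D.c hc2).2.2 ξ h2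
  have hx1red' : red x1 = ξ := hx1red
  have hx2red' : red x2 = ξ := hx2red
  by_cases hπ : ∃ π : K, π ≠ 0 ∧ π ∈ A.nonunits
  swap
  · -- degenerate case: `x1` is an exact idempotent of the field `F`
    have h0 : red (x1 - x1 * x1) = 0 := by rw [map_sub, map_mul, hx1red', hξ.eq, sub_self]
    have h3 : ((x1 - x1 * x1 : B) : F) = 0 := rad_eq_zero_of_forall h hs hπ (hker _ h0)
    push_cast at h3
    have h4 : (x1 : F) * (1 - (x1 : F)) = 0 := by linear_combination h3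
    rcases mul_eq_zero.mp h4 with h5 | h5
    · exact ⟨x1, ⟨0, by rw [h5, map_zero]⟩, hx1red'⟩
    · exact ⟨x1, ⟨1, by rw [map_one]; linear_combination -h5⟩, hx1red'⟩
  obtain ⟨π, hπ0, hπn⟩ := hπ
  have hπA : π ∈ A := by
    rw [← ValuationSubring.valuation_le_one_iff]
    exact ((A.mem_nonunits_iff).mp hπn).le
  obtain ⟨c0, hc00, hc0A, hBT⟩ := D.boundedTorsion h ho hR
  have hc : π * c0 ≠ 0 := mul_ne_zero hπ0 hc00
  have hcA : π * c0 ∈ A := A.mul_mem _ _ hπA hc0A
  -- the two subrings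
  let S1 : Subring F := ballSubringNP B (fun n => D.L n 0) (fun _ _ hab => D.L_mono hab le_rfl)
    D.one_mem (fun a b x hx y hy => by simpa using D.L_mul a 0 b 0 x hx y hy)
  let S2 : Subring F := ballSubringNP B (fun n => D.L 0 n) (fun _ _ hab => D.L_mono le_rfl hab)
    D.one_mem (fun a b x hx y hy => by simpa using D.L_mul 0 a 0 b x hx y hy)
  have hS1B : S1 ≤ B := fun x hx => by obtain ⟨_, _, hxB⟩ := hx; exact hxB
  have hS2B : S2 ≤ B := fun x hx => by obtain ⟨_, _, hxB⟩ := hx; exact hxB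
  obtain ⟨e, heS, hered, r, hrB, her⟩ := exists_approx_idem h hs hrk red hker S1 hS1B
    (x := x1) ⟨D.c, hx1L, x1.2⟩ hξ hx1red' (π * c0) hc
  obtain ⟨e', he'S, he'red, r', hr'B, he'r⟩ := exists_approx_idem h hs hrk red hker S2 hS2B
    (x := x2) ⟨D.c, hx2L, x2.2⟩ hξ hx2red' (π * c0) hc
  obtain ⟨a, heL, -⟩ := heS
  obtain ⟨b, he'L, -⟩ := he'S
  have heL' : (e : F) ∈ D.L a 0 := heL
  have he'L' : (e' : F) ∈ D.L 0 b := he'L
  -- `s = e + e' - 1` is a ball unit
  have hs2 : ((e : F) + e' - 1) * ((e : F) + e' - 1) - 1 ∈ I := by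
    have h0 : red ((e + e' - 1) * (e + e' - 1) - 1) = 0 := by
      rw [map_sub, map_mul, map_sub, map_add, hered, he'red, map_one]
      have := hξ.eq
      linear_combination 4 * this
    simpa using hker _ h0
  have hsu : IsBallUnit B (((e : F) + e' - 1) * ((e : F) + e' - 1)) :=
    np_isBallUnit_of_sub_one h hs hs2
  have hs0 : (e : F) + e' - 1 ≠ 0 := fun h0 => hsu.2.2 (by rw [h0, mul_zero])
  have hsB : (e : F) + e' - 1 ∈ B := B.sub_mem (B.add_mem e.2 e'.2) B.one_mem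
  have hsinv : ((e : F) + e' - 1)⁻¹ ∈ B := by
    have : ((e : F) + e' - 1)⁻¹ =
        ((e : F) + e' - 1) * (((e : F) + e' - 1) * ((e : F) + e' - 1))⁻¹ := by
      field_simp
    rw [this]
    exact B.mul_mem hsB hsu.2.1
  -- `e - e' = (π c0) • x` with `x ∈ B`
  have hprod : ((e : F) - e') * ((e : F) + e' - 1) = algebraMap K F (π * c0) * (r' - r) := by
    linear_combination he'r - her
  set x : F := (r' - r) * ((e : F) + e' - 1)⁻¹ with hxdef
  have hxB : x ∈ B := B.mul_mem (B.sub_mem hr'B hrB) hsinv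
  have hcx : (π * c0) • x = (e : F) - e' := by
    rw [Algebra.smul_def, hxdef, ← mul_assoc, ← hprod, mul_assoc, mul_inv_cancel₀ hs0, mul_one]
  have hxL : x ∈ D.L (max (max a b) D.a0) (max a b) := by
    have hx' : x = (π * c0)⁻¹ • ((e : F) - e') := by
      rw [← hcx, smul_smul, inv_mul_cancel₀ hc, one_smul]
    rw [hx']
    refine Submodule.smul_mem _ _ (Submodule.sub_mem _ ?_ ?_)
    · exact D.L_mono (le_trans (le_max_left a b) (le_max_left _ _)) (Nat.zero_le _) heL'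
    · exact D.L_mono (Nat.zero_le _) (le_max_right a b) he'L'
  -- bounded torsion
  obtain ⟨z1, ⟨n1, hz1L, hz1B⟩, z2, ⟨n2, hz2L, hz2B⟩, hz⟩ :=
    hBT x ⟨max a b, hxL, hxB⟩ (π * c0) hc hcA
      ⟨(e : F), ⟨a, heL', e.2⟩, -(e' : F),
        ⟨b, by rw [hLD]; exact Submodule.neg_mem _ he'L', B.neg_mem e'.2⟩,
        by rw [hcx]; ring⟩
  have hz2L' : z2 ∈ D.L 0 n2 := by rw [← hLD]; exact hz2L
  -- the constant
  have hee : (e : F) - π • z1 = (e' : F) + π • z2 := by
    have h3 : (e : F) - e' = π • (c0 • x) := by rw [← hcx, smul_smul]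
    rw [hz, smul_add] at h3
    linear_combination h3
  have hκ1 : (e : F) - π • z1 ∈ D.L (max a n1) 0 :=
    Submodule.sub_mem _ (D.L_mono (le_max_left _ _) le_rfl heL')
      (Submodule.smul_mem _ _ (D.L_mono (le_max_right _ _) le_rfl hz1L))
  have hκ2 : (e : F) - π • z1 ∈ D.L 0 (max b n2) := by
    rw [hee]
    exact Submodule.add_mem _ (D.L_mono le_rfl (le_max_left _ _) he'L')
      (Submodule.smul_mem _ _ (D.L_mono le_rfl (le_max_right _ _) hz2L'))
  obtain ⟨cκ, hcκ⟩ := hconst _ _ _ hκ1 hκ2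
  have hπz1B : π • z1 ∈ B := h.smul_mem_ball hπA hz1B
  have hπz1I : π • z1 ∈ I := by
    rw [Algebra.smul_def]; exact h.smul_mem π hπn z1 hz1B
  refine ⟨e - ⟨π • z1, hπz1B⟩, ⟨cκ, ?_⟩, ?_⟩
  · rw [← hcκ]; rfl
  · rw [map_sub, hker' ⟨π • z1, hπz1B⟩ hπz1I, sub_zero, hered]

end Fermat.Agent.GK.Core.IdemLift
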