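/-
GATE-K / N9-INST-T, generic side (helper33): the UNIT TWIST on the generic fibre, in J1 language.

For a reduction datum `R` and a chart `t ∈ R.Rw`, J1 (`InstRed`, helper96) has the normalised
linear factors `nf R ht c` (`t - c` for `c ∈ A`, `1 - t/c` for `c ∉ A`) and their products
`prodNf R ht S m ∈ R.Rw`.  This file records the three facts the two-valuation `CoreFam`
instance needs about `Φ := prodNf R ht (insert t2 T) (wtNat T t2 a b)` (`= Φ₁^a Φ₂^b` of
`GK/Core/TwistLt.lean`):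

* `coe_prodNf_congr` : the element of `F` only depends on `R.A` (so it is the same element for
  the two reduction data `R₁`, `R₂` of the two Gauss valuations);
* `mem_Lspace_iff_prodNf_mul_mem_Lfib` : `x ∈ L(∑ m c • (t = c) + mInf • (t = ∞))` iff
  `Φ * x ∈ L((mInf + ∑ m c) • (t = ∞))`  (all poles moved to the fibre at infinity);
* `red_prodNf_twist` : `red Φ = (∏_{σ ∈ S~} (s - σ)^{μ σ})^a * (s - res t2)^b`, `s = red t`
  (`= p₁^a p₂^b` for `ChartPair.ofRoots (resImage R T) (mult R T) _ (res t2)`),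
together with the bookkeeping of the indices.
-/
import Fermat.Agent.GJ.J1.InstRed
import Fermat.Agent.GJ.J1.InstMult

set_option autoImplicit false

namespace Fermat.Agent.GK.Core.TwistGen

open Fermat.Agent.GJ.J1 Fermat.Agent.GJ.J1.G1 Fermat.Agent.GJ.J1.InstRed
open Fermat.Agent.GJ.J1.InstMult

variable {K F : Type*} [Field K] [Field F] [Algebra K F]

section one

variable {k Ft : Type*} [Field k] [Field Ft] [Algebra k Ft] (R : RedData K F k Ft)

/-- **generic twist, general weights**: multiplication by the unit `prodNf` moves the whole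
divisor to the fibre at infinity. -/
theorem mem_Lspace_iff_prodNf_mul_mem_Lfib {t : F} (ht : t ∈ R.Rw)
    (htc : ∀ c : K, t ≠ algebraMap K F c) (S : Finset K) (m : K → ℕ) (w : K → ℤ)
    (hw : ∀ c ∈ S, w c = m c) (hw0 : ∀ c, c ∉ S → w c = 0) (mInf : ℤ) (x : F) :
    x ∈ Lspace K t w mInf ↔
      ((prodNf R ht S m : R.Rw) : F) * x ∈ Lfib K t (mInf + ∑ c ∈ S, (m c : ℤ)) := by
  rw [mem_Lspace_iff_mul_mem_Lfib htc S w hw0 mInf x]
  have e : ∏ c ∈ S, (t - algebraMap K F c) ^ (w c) = ∏ c ∈ S, (t - algebraMap K F c) ^ m c :=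
    Finset.prod_congr rfl fun c hc => by rw [hw c hc, zpow_natCast]
  have es : ∑ c ∈ S, w c = ∑ c ∈ S, (m c : ℤ) := Finset.sum_congr rfl fun c hc => hw c hc
  have hne : (∏ c ∈ S, (nc R c) ^ m c) ≠ 0 :=
    Finset.prod_ne_zero_iff.mpr fun c _ => pow_ne_zero _ (nc_ne_zero R c)
  rw [e, es, coe_prodNf, mul_assoc, ← Algebra.smul_def]
  exact (Submodule.smul_mem_iff _ hne).symm

theorem prodNf_ne_zero {t : F} (ht : t ∈ R.Rw) (htc : ∀ c : K, t ≠ algebraMap K F c)
    (S : Finset K) (m : K → ℕ) : ((prodNf R ht S m : R.Rw) : F) ≠ 0 := by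
  rw [coe_prodNf]
  refine mul_ne_zero ((_root_.map_ne_zero _).mpr
    (Finset.prod_ne_zero_iff.mpr fun c _ => pow_ne_zero _ (nc_ne_zero R c))) ?_
  exact Finset.prod_ne_zero_iff.mpr fun c _ => pow_ne_zero _ (sub_ne_zero.mpr (htc c))

open Classical in
/-- the product of the reduced linear factors over `T`, fibrewise over `S~ = resImage R T` -/
theorem prod_red_nf {t : F} (ht : t ∈ R.Rw) (T : Finset K) :
    ∏ c ∈ T, R.red (nf R ht c) =
      ∏ σ ∈ resImage R T, (R.red ⟨t, ht⟩ - algebraMap k Ft σ) ^ mult R T σ := by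
  rw [← Finset.prod_filter_mul_prod_filter_not T (fun c => c ∈ R.A)]
  have h2 : ∏ c ∈ T.filter (fun c => ¬ c ∈ R.A), R.red (nf R ht c) = 1 :=
    Finset.prod_eq_one fun c hc => red_nf_of_notMem R ht (Finset.mem_filter.mp hc).2
  rw [h2, mul_one]
  rw [← Finset.prod_fiberwise_of_maps_to (s := T.filter fun c => c ∈ R.A) (t := resImage R T)
    (g := resOr R) (fun c hc => Finset.mem_image_of_mem _ hc)]
  refine Finset.prod_congr rfl fun σ _ => ?_
  have h3 : ∀ c ∈ (T.filter fun c => c ∈ R.A).filter (fun c => resOr R c = σ),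
      R.red (nf R ht c) = R.red ⟨t, ht⟩ - algebraMap k Ft σ := by
    intro c hc
    rw [Finset.mem_filter, Finset.mem_filter] at hc
    rw [red_nf_of_mem R ht hc.1.2, ← resOr_of_mem R hc.1.2, hc.2]
  rw [Finset.prod_congr rfl h3, Finset.prod_const]
  congr 1
  unfold mult
  rw [filter_res_eq]

open Classical in
/-- **reduction of the twisting unit** `Φ₁^a Φ₂^b`. -/
theorem red_prodNf_twist {t : F} (ht : t ∈ R.Rw) (T : Finset K) (t2 : K) (ht2 : t2 ∈ R.A)
    (ht2T : t2 ∉ T) (a b : ℕ) :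
    R.red (prodNf R ht (insert t2 T) (wtNat T t2 a b)) =
      (∏ σ ∈ resImage R T, (R.red ⟨t, ht⟩ - algebraMap k Ft σ) ^ mult R T σ) ^ a *
        (R.red ⟨t, ht⟩ - algebraMap k Ft (R.res ⟨t2, ht2⟩)) ^ b := by
  rw [red_prodNf, Finset.prod_insert ht2T, wtNat_self T ht2T, red_nf_of_mem R ht ht2, mul_comm]
  congr 1
  rw [← prod_red_nf R ht T, ← Finset.prod_pow]
  exact Finset.prod_congr rfl fun c hc => by rw [wtNat_of_mem ht2T a b hc]

omit [Field K] in
open Classical in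
/-- the total weight of `a·1_T + b·1_{t2}` -/
theorem sum_wtNat (T : Finset K) {t2 : K} (ht2T : t2 ∉ T) (a b : ℕ) :
    ∑ c ∈ insert t2 T, (wtNat T t2 a b c : ℤ) = (a * T.card + b : ℕ) := by
  rw [Finset.sum_insert ht2T, wtNat_self T ht2T]
  have : ∑ c ∈ T, (wtNat T t2 a b c : ℤ) = ∑ _c ∈ T, (a : ℤ) :=
    Finset.sum_congr rfl fun c hc => by rw [wtNat_of_mem ht2T a b hc]
  rw [this, Finset.sum_const, nsmul_eq_mul]
  push_cast
  ring

/-- the virtual degree of `p₁`: `(ε + big) + ∑_{σ ∈ S~} μ σ = ε + #T` -/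
theorem rootsDeg_eq (T : Finset K) (ε : ℕ) :
    (ε + big R T) + ∑ σ ∈ resImage R T, mult R T σ = ε + T.card := by
  classical
  have h := sum_card_filter_add R T
  unfold big mult
  have h' : (∑ σ ∈ resImage R T, (T.filter fun c => ∃ hc : c ∈ R.A, R.res ⟨c, hc⟩ = σ).card)
      + (T.filter fun c => c ∉ R.A).card = T.card := by
    convert h using 3
  omega

open Classical in
/-- **generic twist in the `CoreFam` shape**: `L a b = Lspace K t w (a ε)` with
`w = a·1_T + b·1_{t2}`; then `x ∈ L a b ↔ Φ * x ∈ Lfib K t (a (ε + #T) + b)`. -/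
theorem mem_L_iff_twist_mul_mem_Lfib {t : F} (ht : t ∈ R.Rw)
    (htc : ∀ c : K, t ≠ algebraMap K F c) (T : Finset K) (ε : ℕ) (t2 : K) (ht2T : t2 ∉ T)
    (a b : ℕ) (w : K → ℤ) (hw : ∀ c, w c = (wtNat T t2 a b c : ℤ)) (x : F) :
    x ∈ Lspace K t w ((a * ε : ℕ) : ℤ) ↔
      ((prodNf R ht (insert t2 T) (wtNat T t2 a b) : R.Rw) : F) * x ∈
        Lfib K t ((a * (ε + T.card) + b : ℕ) : ℤ) := by
  have hw0 : ∀ c, c ∉ insert t2 T → w c = 0 := by
    intro c hc
    rw [Finset.mem_insert, not_or] at hc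
    rw [hw c]
    unfold wtNat
    rw [if_neg hc.2, if_neg hc.1]
    rfl
  rw [mem_Lspace_iff_prodNf_mul_mem_Lfib R ht htc (insert t2 T) (wtNat T t2 a b) w
    (fun c _ => hw c) hw0, sum_wtNat T ht2T]
  have e : ((a * ε : ℕ) : ℤ) + ((a * T.card + b : ℕ) : ℤ) = ((a * (ε + T.card) + b : ℕ) : ℤ) := by
    push_cast
    ring
  rw [e]

end one

section two

variable {k Ft1 Ft2 : Type*} [Field k] [Field Ft1] [Algebra k Ft1] [Field Ft2] [Algebra k Ft2]

/-- the normalising constant only depends on `R.A` -/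
theorem nc_congr (R1 : RedData K F k Ft1) (R2 : RedData K F k Ft2) (hA : R1.A = R2.A) (c : K) :
    nc R1 c = nc R2 c := by
  unfold nc
  by_cases h : c ∈ R1.A
  · rw [if_pos h, if_pos (hA ▸ h)]
  · rw [if_neg h, if_neg (fun h' => h (hA.symm ▸ h'))]

/-- **the twisting unit is the same element of `F` for both reduction data** -/
theorem coe_prodNf_congr (R1 : RedData K F k Ft1) (R2 : RedData K F k Ft2) (hA : R1.A = R2.A)
    {t : F} (ht1 : t ∈ R1.Rw) (ht2 : t ∈ R2.Rw) (S : Finset K) (m : K → ℕ) :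
    ((prodNf R1 ht1 S m : R1.Rw) : F) = ((prodNf R2 ht2 S m : R2.Rw) : F) := by
  rw [coe_prodNf, coe_prodNf]
  congr 2
  exact Finset.prod_congr rfl fun c _ => by rw [nc_congr R1 R2 hA c]

/-- the twisting unit lies in both valuation rings -/
theorem prodNf_mem_inf (R1 : RedData K F k Ft1) (R2 : RedData K F k Ft2) (hA : R1.A = R2.A)
    {t : F} (ht1 : t ∈ R1.Rw) (ht2 : t ∈ R2.Rw) (S : Finset K) (m : K → ℕ) :
    ((prodNf R1 ht1 S m : R1.Rw) : F) ∈ R1.Rw ∧ ((prodNf R1 ht1 S m : R1.Rw) : F) ∈ R2.Rw :=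
  ⟨(prodNf R1 ht1 S m).2, by
    rw [coe_prodNf_congr R1 R2 hA ht1 ht2 S m]; exact (prodNf R2 ht2 S m).2⟩

end two

end Fermat.Agent.GK.Core.TwistGen
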